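/-
S43lib / BigImg / Abstract (helper4).  **Irreducibility on subgroups of index two from ONE unipotent element.**

Let `ρ : Γ → GL(V)` be an irreducible representation on a plane `V` over a field `k` of odd characteristic
`p`, and suppose that `u = ρ σ₀` is unipotent and `≠ 1`.  Then for every field `K ⊇ k` and every subgroup
`G ≤ Γ` which is `Γ` itself or of index two, `K ⊗ V` has no `G`-stable line.

Proof.  `u^p = 1`, so `u = (u^((p+1)/2))²` and every conjugate `ρ(g) u ρ(g)⁻¹` is `ρ τ` for some `τ ∈ G` (squares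
lie in subgroups of index two).  A `G`-stable `W ≠ 0` contains `1 ⊗ e₁`, `e₁` spanning the fixed line `ℓ` of `u`;
if `W ≠ K ⊗ V`, stability under the conjugates gives `ρ(g) u ρ(g)⁻¹ e₁ ∈ k e₁`, hence `ρ(g)⁻¹ e₁` is an
eigenvector of `u`, hence in `ℓ`: `ℓ` is `Γ`-stable, contradicting the irreducibility over `k`.
-/
import Mathlib

set_option autoImplicit false

open scoped TensorProduct

namespace Fermat.Agent.S43lib.BigImg

section Abstract

variable {k : Type*} [Field k] {V : Type*} [AddCommGroup V] [Module k V]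

/-- powers of a unipotent endomorphism of exponent two -/
lemma one_add_pow_of_sq_zero (n : Module.End k V) (hn : n * n = 0) (j : ℕ) :
    (1 + n) ^ j = 1 + (j : k) • n := by
  induction j with
  | zero => simp
  | succ j ih =>
    rw [pow_succ, ih, mul_add, mul_one, add_mul, one_mul, smul_mul_assoc, hn, smul_zero, add_zero,
      Nat.cast_succ, add_smul, one_smul]
    abel

/-- a unipotent endomorphism of exponent two has order dividing `p` in characteristic `p` -/
lemma pow_char_eq_one (p : ℕ) [CharP k p] (u : Module.End k V) (hsq : (u - 1) * (u - 1) = 0) :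
    u ^ p = 1 := by
  have h := one_add_pow_of_sq_zero (u - 1) hsq p
  rw [add_sub_cancel, CharP.cast_eq_zero, zero_smul, add_zero] at h
  exact h

variable {Γ : Type*} [Group Γ] (ρ : Γ →* Module.End k V)

/-- every conjugate of an element of odd order `p` is the image of an element of `G` -/
lemma exists_mem_conj (p : ℕ) [hp : Fact p.Prime] [CharP k p] (hp2 : p ≠ 2) (σ₀ : Γ)
    (hsq : (ρ σ₀ - 1) * (ρ σ₀ - 1) = 0) (G : Subgroup Γ) (hG : G.index = 2 ∨ G = ⊤) (g : Γ) :
    ∃ τ ∈ G, ρ τ = ρ g * ρ σ₀ * ρ g⁻¹ := by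
  obtain ⟨m, hm⟩ : ∃ m, p + 1 = 2 * m := by
    rcases hp.out.eq_two_or_odd' with h | h
    · exact absurd h hp2
    · obtain ⟨j, hj⟩ := h
      exact ⟨j + 1, by omega⟩
  have hup : ρ σ₀ ^ p = 1 := pow_char_eq_one p (ρ σ₀) hsq
  have hc : (g * σ₀ * g⁻¹) ^ (2 * m) = g * σ₀ ^ (2 * m) * g⁻¹ := by
    rw [conj_pow]
  refine ⟨(g * σ₀ * g⁻¹) ^ m * (g * σ₀ * g⁻¹) ^ m, ?_, ?_⟩
  · rcases hG with h | h
    · exact Subgroup.mul_self_mem_of_index_two h _
    · rw [h]
      exact Subgroup.mem_top _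
  · rw [← pow_add, ← two_mul, hc, map_mul, map_mul, map_pow, ← hm, pow_succ, hup, one_mul]

/-- **Irreducibility on subgroups of index at most two.** -/
theorem stable_eq_bot_or_top (hV : Module.finrank k V = 2)
    (hirr : ∀ W : Submodule k V, (∀ g, ∀ x ∈ W, ρ g x ∈ W) → W = ⊥ ∨ W = ⊤)
    (p : ℕ) [hp : Fact p.Prime] [CharP k p] (hp2 : p ≠ 2)
    (σ₀ : Γ) (hne : ρ σ₀ ≠ 1) (hsq : (ρ σ₀ - 1) * (ρ σ₀ - 1) = 0)
    (K : Type*) [Field K] [Algebra k K] (G : Subgroup Γ) (hG : G.index = 2 ∨ G = ⊤)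
    (W : Submodule K (K ⊗[k] V))
    (hW : ∀ g ∈ G, ∀ x ∈ W, (ρ g).baseChange K x ∈ W) : W = ⊥ ∨ W = ⊤ := by
  classical
  by_contra hcon
  rw [not_or] at hcon
  obtain ⟨hbot, htop⟩ := hcon
  set u := ρ σ₀ with hu
  set n := u - 1 with hn
  -- the adapted basis
  obtain ⟨e₂, he₂⟩ : ∃ e₂ : V, n e₂ ≠ 0 := by
    by_contra h
    rw [not_exists] at h
    have h : ∀ x, n x = 0 := fun x => not_not.1 (h x)
    apply hne
    have : n = 0 := LinearMap.ext h
    rw [hn, sub_eq_zero] at this
    exact this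
  set e₁ := n e₂ with he₁
  have hne₁ : n e₁ = 0 := by
    have := LinearMap.congr_fun hsq e₂
    simpa using this
  have hue₁ : u e₁ = e₁ := by
    have : (u - 1) e₁ = 0 := hne₁
    rw [LinearMap.sub_apply, Module.End.one_apply, sub_eq_zero] at this
    exact this
  have hue₂ : u e₂ = e₂ + e₁ := by
    have : (u - 1) e₂ = e₁ := rfl
    rw [LinearMap.sub_apply, Module.End.one_apply, sub_eq_iff_eq_add] at this
    rw [this, add_comm]
  have hli : LinearIndependent k ![e₁, e₂] := by
    rw [LinearIndependent.pair_iff]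
    intro a b hab
    have h1 : n (a • e₁ + b • e₂) = 0 := by rw [hab, map_zero]
    rw [map_add, map_smul, map_smul, hne₁, smul_zero, zero_add] at h1
    have hb : b = 0 := by
      rcases smul_eq_zero.1 h1 with h | h
      · exact h
      · exact absurd h he₂
    rw [hb, zero_smul, add_zero] at hab
    have ha : a = 0 := by
      rcases smul_eq_zero.1 hab with h | h
      · exact h
      · exact absurd h he₂
    exact ⟨ha, hb⟩
  let b : Module.Basis (Fin 2) k V :=
    basisOfLinearIndependentOfCardEqFinrank hli (by rw [Fintype.card_fin, hV])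
  have hb0 : b 0 = e₁ := by
    simp [b, coe_basisOfLinearIndependentOfCardEqFinrank]
  have hb1 : b 1 = e₂ := by
    simp [b, coe_basisOfLinearIndependentOfCardEqFinrank]
  have hrepr : ∀ v : V, v = b.repr v 0 • e₁ + b.repr v 1 • e₂ := by
    intro v
    conv_lhs => rw [← b.sum_repr v]
    rw [Fin.sum_univ_two, hb0, hb1]
  have hindep : ∀ a c : k, a • e₁ + c • e₂ = 0 → a = 0 ∧ c = 0 :=
    LinearIndependent.pair_iff.1 hli
  set bK := b.baseChange K with hbK
  set E₁ : K ⊗[k] V := (1 : K) ⊗ₜ[k] e₁ with hE₁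
  set E₂ : K ⊗[k] V := (1 : K) ⊗ₜ[k] e₂ with hE₂
  have hbK0 : bK 0 = E₁ := by rw [hbK, Module.Basis.baseChange_apply, hb0]
  have hbK1 : bK 1 = E₂ := by rw [hbK, Module.Basis.baseChange_apply, hb1]
  have hreprK : ∀ w : K ⊗[k] V, w = bK.repr w 0 • E₁ + bK.repr w 1 • E₂ := by
    intro w
    conv_lhs => rw [← bK.sum_repr w]
    rw [Fin.sum_univ_two, hbK0, hbK1]
  have htmul : ∀ a c : k, (1 : K) ⊗ₜ[k] (a • e₁ + c • e₂) =
      algebraMap k K a • E₁ + algebraMap k K c • E₂ := by
    intro a c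
    rw [TensorProduct.tmul_add, TensorProduct.tmul_smul, TensorProduct.tmul_smul,
      algebraMap_smul, algebraMap_smul]
  -- every conjugate of `u` comes from `G`
  have hconj := exists_mem_conj ρ p hp2 σ₀ hsq G hG
  -- step (a): `E₁ ∈ W`
  have hE₁W : E₁ ∈ W := by
    obtain ⟨w, hwW, hw0⟩ := (Submodule.ne_bot_iff W).1 hbot
    obtain ⟨τ, hτG, hτ⟩ := hconj 1
    rw [map_one, inv_one, map_one, one_mul, mul_one] at hτ
    have hUw := hW τ hτG w hwW
    rw [hτ] at hUw
    set x := bK.repr w 0 with hx_def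
    set y := bK.repr w 1 with hy_def
    have hw : w = x • E₁ + y • E₂ := hreprK w
    have hUE₁ : (u.baseChange K) E₁ = E₁ := by
      rw [hE₁, LinearMap.baseChange_tmul, hue₁]
    have hUE₂ : (u.baseChange K) E₂ = E₂ + E₁ := by
      rw [hE₂, LinearMap.baseChange_tmul, hue₂, TensorProduct.tmul_add]
    have hdiff : (u.baseChange K) w - w = y • E₁ := by
      conv_lhs => rw [hw]
      rw [map_add, map_smul, map_smul, hUE₁, hUE₂, smul_add]
      abel
    have hyW : y • E₁ ∈ W := hdiff ▸ W.sub_mem hUw hwW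
    by_cases hy : y = 0
    · have hx : x ≠ 0 := by
        intro hx
        apply hw0
        rw [hw, hx, hy, zero_smul, zero_smul, add_zero]
      have : x • E₁ ∈ W := by
        have h1 : w = x • E₁ := by rw [hw, hy, zero_smul, add_zero]
        exact h1 ▸ hwW
      have h2 := W.smul_mem x⁻¹ this
      rwa [smul_smul, inv_mul_cancel₀ hx, one_smul] at h2
    · have h2 := W.smul_mem y⁻¹ hyW
      rwa [smul_smul, inv_mul_cancel₀ hy, one_smul] at h2
  -- step (b): the conjugates of `u` map `e₁` into `k e₁`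
  have hstep : ∀ g : Γ, b.repr ((ρ g * u * ρ g⁻¹) e₁) 1 = 0 := by
    intro g
    by_contra hβ
    apply htop
    obtain ⟨τ, hτG, hτ⟩ := hconj g
    have h1 := hW τ hτG E₁ hE₁W
    rw [hτ, hE₁, LinearMap.baseChange_tmul, hrepr ((ρ g * u * ρ g⁻¹) e₁), htmul] at h1
    have h2 : algebraMap k K (b.repr ((ρ g * u * ρ g⁻¹) e₁) 1) • E₂ ∈ W := by
      have := W.sub_mem h1 (W.smul_mem (algebraMap k K (b.repr ((ρ g * u * ρ g⁻¹) e₁) 0)) hE₁W)
      rwa [add_sub_cancel_left] at this
    have h3 : algebraMap k K (b.repr ((ρ g * u * ρ g⁻¹) e₁) 1) ≠ 0 := by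
      rw [Ne, map_eq_zero_iff _ (algebraMap k K).injective]
      exact hβ
    have hE₂W : E₂ ∈ W := by
      have h4 := W.smul_mem (algebraMap k K (b.repr ((ρ g * u * ρ g⁻¹) e₁) 1))⁻¹ h2
      rwa [smul_smul, inv_mul_cancel₀ h3, one_smul] at h4
    rw [eq_top_iff]
    intro w _
    rw [hreprK w]
    exact W.add_mem (W.smul_mem _ hE₁W) (W.smul_mem _ hE₂W)
  -- step (c): the line `k e₁` is stable
  have hline : ∀ g : Γ, b.repr (ρ g⁻¹ e₁) 1 = 0 := by
    intro g
    set v := ρ g⁻¹ e₁ with hv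
    set a := b.repr ((ρ g * u * ρ g⁻¹) e₁) 0 with ha
    have h1 : (ρ g * u * ρ g⁻¹) e₁ = a • e₁ := by
      rw [hrepr ((ρ g * u * ρ g⁻¹) e₁), hstep g, zero_smul, add_zero]
    have h2 : u v = a • v := by
      have h3 : ρ g⁻¹ ((ρ g * u * ρ g⁻¹) e₁) = u v := by
        rw [Module.End.mul_apply, Module.End.mul_apply, ← Module.End.mul_apply, ← map_mul,
          inv_mul_cancel, map_one, Module.End.one_apply]
      rw [← h3, h1, map_smul]
    set c := b.repr v 0 with hc_def
    set d := b.repr v 1 with hd_def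
    have hv' : v = c • e₁ + d • e₂ := hrepr v
    by_contra hd
    have h4 : u v = (c + d) • e₁ + d • e₂ := by
      conv_lhs => rw [hv']
      rw [map_add, map_smul, map_smul, hue₁, hue₂, smul_add, add_smul]
      abel
    have h5 : (c + d - a * c) • e₁ + (d - a * d) • e₂ = 0 := by
      have : (c + d) • e₁ + d • e₂ = a • (c • e₁ + d • e₂) := by rw [← h4, h2, ← hv']
      rw [sub_smul, sub_smul, mul_smul, mul_smul]
      rw [smul_add] at this
      rw [sub_add_sub_comm, this, sub_self]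
    obtain ⟨h6, h7⟩ := hindep _ _ h5
    have ha1 : a = 1 := by
      have : d * (1 - a) = 0 := by rw [mul_sub, mul_one, mul_comm d a]; exact h7
      rcases mul_eq_zero.1 this with h | h
      · exact absurd h hd
      · exact (sub_eq_zero.1 h).symm
    rw [ha1, one_mul, add_sub_cancel_left] at h6
    exact hd h6
  -- step (d): contradiction with irreducibility
  have hℓ : ∀ g, ∀ x ∈ Submodule.span k {e₁}, ρ g x ∈ Submodule.span k {e₁} := by
    intro g x hx
    obtain ⟨t, rfl⟩ := Submodule.mem_span_singleton.1 hx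
    rw [map_smul]
    apply Submodule.smul_mem
    have h1 := hline g⁻¹
    rw [inv_inv] at h1
    rw [Submodule.mem_span_singleton]
    refine ⟨b.repr (ρ g e₁) 0, ?_⟩
    conv_rhs => rw [hrepr (ρ g e₁), h1, zero_smul, add_zero]
  have he₁0 : e₁ ≠ 0 := he₂
  rcases hirr _ hℓ with h | h
  · have : e₁ ∈ (⊥ : Submodule k V) := h ▸ Submodule.mem_span_singleton_self e₁
    exact he₁0 ((Submodule.mem_bot k).1 this)
  · have : e₂ ∈ Submodule.span k {e₁} := h ▸ Submodule.mem_top
    obtain ⟨t, ht⟩ := Submodule.mem_span_singleton.1 this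
    apply he₂
    calc e₁ = n e₂ := he₁
      _ = n (t • e₁) := by rw [ht]
      _ = 0 := by rw [map_smul, hne₁, smul_zero]

end Abstract

end Fermat.Agent.S43lib.BigImg
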