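/-
S43lib / BigImg / TFun2 (helper4): the branch-ratio function `t = (y - r x)/(y + (1 + r) x)` on the
nodal model `y² + x y = x³ + a x² + b x` in residue characteristic 2 (`S13lib.Node2`), an algebraic
stand-in for the Tate parameter: it is multiplicative on the points with nonsingular reduction up to
`1 + b·(integers)`, and it is `≡ 1` exactly on the kernel of reduction.
(Analogue of `S44lib.Q3.TFun`, which needs `v 2 = 1`.)
-/
import Mathlib
import Fermat.Agent.S13lib.Node2.Torsion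

set_option autoImplicit false
set_option linter.unusedSectionVars false

namespace Fermat.Agent.S43lib.BigImg

open WeierstrassCurve WeierstrassCurve.Affine Fermat.Agent.S13lib.Node2
open Fermat.Agent.S05lib (IntegralModel InE1 inE1_zero inE1_some)

section algebra

variable {K : Type*} [Field K] {a b r : K}

/-- Vieta: the product of the branch functions of slope `β` (`β² + β = a`) over the three points of
a line `y = ℓ x + ν`. -/
lemma branch_prod_line {β x₁ x₂ x₃ ℓ ν : K} (hβ : β ^ 2 + β = a)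
    (hV1 : x₁ + x₂ + x₃ = ℓ ^ 2 + ℓ - a)
    (hV2 : x₁ * x₂ + x₁ * x₃ + x₂ * x₃ = b - (2 * ℓ + 1) * ν)
    (hV3 : x₁ * x₂ * x₃ = ν ^ 2) :
    ((ℓ - β) * x₁ + ν) * ((ℓ - β) * x₂ + ν) * ((ℓ - β) * x₃ + ν) =
      ν * (ν ^ 2 + b * (ℓ - β) ^ 2) := by
  linear_combination ((ℓ - β) ^ 3) * hV3 + ((ℓ - β) ^ 2 * ν) * hV2 +
    ((ℓ - β) * ν ^ 2) * hV1 + ((ℓ - β) * ν ^ 2) * hβ

/-- clearing denominators in the multiplicativity defect of a ratio -/
lemma ratio_defect {A₁ A₂ A₃ B₁ B₂ B₃ : K} (h1 : B₁ ≠ 0) (h2 : B₂ ≠ 0) (h3 : B₃ ≠ 0) :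
    (A₃ / B₃ - A₁ / B₁ * (A₂ / B₂)) * (B₁ * B₂ * B₃) = A₃ * B₁ * B₂ - A₁ * A₂ * B₃ := by
  field_simp

lemma ratio_inv_defect {A B A' B' : K} (h1 : B ≠ 0) (h2 : B' ≠ 0) (h : A' * A = B' * B) :
    (1 : K) - A' / B' * (A / B) = 0 := by
  have : A' / B' * (A / B) = 1 := by
    rw [div_mul_div_comm, h, div_self (mul_ne_zero h2 h1)]
  rw [this, sub_self]

lemma ratio_sub_one {A B : K} (h1 : B ≠ 0) : A / B - 1 = (A - B) / B := by
  field_simp

/-- the product of the "minus" branch functions over `P₁, P₂` and the "plus" one at `P₁ + P₂` -/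
lemma branch_prod_minus2 {x₁ x₂ x₃ y₁ y₂ y₃ ℓ ν : K} (hr : r ^ 2 + r = a)
    (hy₁ : y₁ = ℓ * x₁ + ν) (hy₂ : y₂ = ℓ * x₂ + ν) (hy₃ : y₃ = -(ℓ * x₃ + ν) - x₃)
    (hV1 : x₁ + x₂ + x₃ = ℓ ^ 2 + ℓ - a)
    (hV2 : x₁ * x₂ + x₁ * x₃ + x₂ * x₃ = b - (2 * ℓ + 1) * ν)
    (hV3 : x₁ * x₂ * x₃ = ν ^ 2) :
    (y₁ - r * x₁) * (y₂ - r * x₂) * (y₃ + (1 + r) * x₃) = -(ν * (ν ^ 2 + b * (ℓ - r) ^ 2)) := by
  have key := branch_prod_line (b := b) (β := r) hr hV1 hV2 hV3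
  subst hy₁ hy₂ hy₃
  linear_combination -key

/-- the product of the "plus" branch functions over `P₁, P₂` and the "minus" one at `P₁ + P₂` -/
lemma branch_prod_plus2 {x₁ x₂ x₃ y₁ y₂ y₃ ℓ ν : K} (hr : r ^ 2 + r = a)
    (hy₁ : y₁ = ℓ * x₁ + ν) (hy₂ : y₂ = ℓ * x₂ + ν) (hy₃ : y₃ = -(ℓ * x₃ + ν) - x₃)
    (hV1 : x₁ + x₂ + x₃ = ℓ ^ 2 + ℓ - a)
    (hV2 : x₁ * x₂ + x₁ * x₃ + x₂ * x₃ = b - (2 * ℓ + 1) * ν)
    (hV3 : x₁ * x₂ * x₃ = ν ^ 2) :
    (y₁ + (1 + r) * x₁) * (y₂ + (1 + r) * x₂) * (y₃ - r * x₃) =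
      -(ν * (ν ^ 2 + b * (ℓ + (1 + r)) ^ 2)) := by
  have hs : (-1 - r) ^ 2 + (-1 - r) = a := by linear_combination hr
  have key := branch_prod_line (b := b) (β := -1 - r) hs hV1 hV2 hV3
  subst hy₁ hy₂ hy₃
  linear_combination -key

end algebra

section val

variable {K : Type*} [Field K] [DecidableEq K] {Γ₀ : Type*} [LinearOrderedCommGroupWithZero Γ₀]
  {v : Valuation K Γ₀} {a b r : K}

variable (a b r) in
/-- The branch ratio `t = (y - r x)/(y + (1 + r) x)`, with `t(0) = 1`. -/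
noncomputable def tf2 : (nodeW a b).toAffine.Point → K
  | .zero => 1
  | .some x y _ => (y - r * x) / (y + (1 + r) * x)

@[simp] lemma tf2_zero : tf2 a b r (0 : (nodeW a b).toAffine.Point) = 1 := rfl

@[simp] lemma tf2_some {x y : K} (hP : (nodeW a b).toAffine.Nonsingular x y) :
    tf2 a b r (.some x y hP) = (y - r * x) / (y + (1 + r) * x) := rfl

/-- In `E₀` both branch functions have the same nonzero valuation. -/
lemma v_branch_eq2 (h : Node2Data v a b r) {x y : K}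
    (hxy : y ^ 2 + x * y = x ^ 3 + a * x ^ 2 + b * x) (hx : 1 ≤ v x) :
    v (y - r * x) = v (y + (1 + r) * x) ∧ v (y + (1 + r) * x) ≠ 0 := by
  obtain ⟨h1, h2⟩ := h.v_branch_sq_of_E0 hxy hx
  have e : v (y - r * x) ^ 2 = v (y + (1 + r) * x) ^ 2 := by rw [h1, h2]
  refine ⟨(pow_left_inj₀ zero_le zero_le two_ne_zero).mp e, ?_⟩
  intro h0
  rw [h0] at h1
  have hx0 : 0 < v x := lt_of_lt_of_le zero_lt_one hx
  have : v x ^ 3 = 0 := by rw [← h1]; exact zero_pow two_ne_zero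
  exact (pow_pos hx0 3).ne' this

/-- `t` is a unit on `E₀`. -/
lemma v_tf2_of_E0 (h : Node2Data v a b r) {P : (nodeW a b).toAffine.Point}
    (hP : IsE0 v a b P) : v (tf2 a b r P) = 1 := by
  rcases P with _ | ⟨x, y, hxy⟩
  · show v (1 : K) = 1
    exact map_one v
  · have hx : 1 ≤ v x := hP
    obtain ⟨e1, e2⟩ := v_branch_eq2 h ((nd_equation_iff a b x y).mp hxy.1) hx
    rw [tf2_some, map_div₀, e1, div_self e2]

lemma tf2_ne_zero_of_E0 (h : Node2Data v a b r) {P : (nodeW a b).toAffine.Point}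
    (hP : IsE0 v a b P) : tf2 a b r P ≠ 0 := by
  intro h0
  have := v_tf2_of_E0 h hP
  rw [h0, map_zero] at this
  exact zero_ne_one this

lemma v_two_le_one : v (2 : K) ≤ 1 := by
  have : (2 : K) = 1 + 1 := by norm_num
  rw [this]
  exact Valuation.map_add_le _ (by rw [map_one]) (by rw [map_one])

/-- The multiplicativity defect of `t` on two affine points of `E₀` which are not opposite. -/
lemma tf2_add_some_estimate (h : Node2Data v a b r) {x₁ y₁ x₂ y₂ : K}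
    (h₁ : (nodeW a b).toAffine.Nonsingular x₁ y₁) (h₂ : (nodeW a b).toAffine.Nonsingular x₂ y₂)
    (hx₁ : 1 ≤ v x₁) (hx₂ : 1 ≤ v x₂)
    (hxy : ¬(x₁ = x₂ ∧ y₁ = (nodeW a b).toAffine.negY x₂ y₂)) :
    v (tf2 a b r (Point.some x₁ y₁ h₁ + Point.some x₂ y₂ h₂) -
      tf2 a b r (Point.some x₁ y₁ h₁) * tf2 a b r (Point.some x₂ y₂ h₂)) ≤ v b := by
  obtain ⟨ℓ, ν, x₃, y₃, h₃, hadd, hy₁, hy₂, hy₃, hV1, hV2, hV3⟩ := nd_add_some a b h₁ h₂ hxy
  have hx₃ : 1 ≤ v x₃ := by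
    have := h.comp_add_EE (P := Point.some x₁ y₁ h₁) (Q := Point.some x₂ y₂ h₂) hx₁ hx₂
    rw [hadd] at this
    exact this
  have e₁ := (nd_equation_iff a b x₁ y₁).mp h₁.1
  have e₂ := (nd_equation_iff a b x₂ y₂).mp h₂.1
  have e₃ := (nd_equation_iff a b x₃ y₃).mp h₃.1
  obtain ⟨b1, c1⟩ := v_branch_eq2 h e₁ hx₁
  obtain ⟨b2, c2⟩ := v_branch_eq2 h e₂ hx₂
  obtain ⟨b3, c3⟩ := v_branch_eq2 h e₃ hx₃
  have n1 : y₁ + (1 + r) * x₁ ≠ 0 := (Valuation.ne_zero_iff v).mp c1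
  have n2 : y₂ + (1 + r) * x₂ ≠ 0 := (Valuation.ne_zero_iff v).mp c2
  have n3 : y₃ + (1 + r) * x₃ ≠ 0 := (Valuation.ne_zero_iff v).mp c3
  have im := branch_prod_minus2 (b := b) h.hr hy₁ hy₂ hy₃ hV1 hV2 hV3
  have ip := branch_prod_plus2 (b := b) h.hr hy₁ hy₂ hy₃ hV1 hV2 hV3
  rw [hadd, tf2_some, tf2_some, tf2_some]
  -- the key identity after clearing denominators
  have key : ((y₃ - r * x₃) / (y₃ + (1 + r) * x₃) -
      (y₁ - r * x₁) / (y₁ + (1 + r) * x₁) * ((y₂ - r * x₂) / (y₂ + (1 + r) * x₂))) *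
      ((y₁ + (1 + r) * x₁) * (y₂ + (1 + r) * x₂) * (y₃ + (1 + r) * x₃)) =
        -((2 * r + 1) * b * (2 * ℓ + 1) * ν) := by
    rw [ratio_defect n1 n2 n3]
    linear_combination ip - im
  -- valuations
  have hν2 : v ν ^ 2 = v x₁ * v x₂ * v x₃ := by
    rw [← map_pow, ← hV3, map_mul, map_mul]
  have hx₁0 : 0 < v x₁ := lt_of_lt_of_le zero_lt_one hx₁
  have hx₂0 : 0 < v x₂ := lt_of_lt_of_le zero_lt_one hx₂
  have hx₃0 : 0 < v x₃ := lt_of_lt_of_le zero_lt_one hx₃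
  have hν2ge : 1 ≤ v ν ^ 2 := by
    rw [hν2]
    exact one_le_mul_of_one_le_of_one_le (one_le_mul_of_one_le_of_one_le hx₁ hx₂) hx₃
  have hν1 : 1 ≤ v ν := by
    by_contra hlt
    rw [not_le] at hlt
    have : v ν ^ 2 < 1 := pow_lt_one₀ zero_le hlt two_ne_zero
    exact absurd hν2ge (not_le.mpr this)
  have hν0 : 0 < v ν := lt_of_lt_of_le zero_lt_one hν1
  have hxle : ∀ {u w z : Γ₀}, 1 ≤ u → 1 ≤ w → 1 ≤ z → u ≤ u * w * z := by
    intro u w z hu hw hz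
    calc u = u * 1 * 1 := by rw [mul_one, mul_one]
      _ ≤ u * w * z := mul_le_mul' (mul_le_mul' le_rfl hw) hz
  -- `v ℓ ≤ v ν`
  have hℓ : v ℓ ≤ v ν := by
    by_cases hℓ1 : v ℓ ≤ 1
    · exact le_trans hℓ1 hν1
    · rw [not_le] at hℓ1
      have hℓ0 : 0 < v ℓ := lt_trans zero_lt_one hℓ1
      have hlt : v ℓ < v (ℓ ^ 2) := by
        rw [map_pow, pow_two]
        calc v ℓ = 1 * v ℓ := (one_mul _).symm
          _ < v ℓ * v ℓ := (mul_lt_mul_iff_left₀ hℓ0).mpr hℓ1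
      have e : ℓ ^ 2 + ℓ = a + x₁ + x₂ + x₃ := by linear_combination -hV1
      have h1 : v (ℓ ^ 2 + ℓ) = v ℓ ^ 2 := by
        rw [Valuation.map_add_eq_of_lt_left _ hlt, map_pow]
      have h2 : v (a + x₁ + x₂ + x₃) ≤ v ν ^ 2 := by
        rw [hν2]
        refine Valuation.map_add_le _ (Valuation.map_add_le _ (Valuation.map_add_le _ ?_ ?_) ?_) ?_
        · exact le_trans h.va
            (one_le_mul_of_one_le_of_one_le (one_le_mul_of_one_le_of_one_le hx₁ hx₂) hx₃)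
        · exact hxle hx₁ hx₂ hx₃
        · calc v x₂ ≤ v x₂ * v x₁ * v x₃ := hxle hx₂ hx₁ hx₃
            _ = v x₁ * v x₂ * v x₃ := by rw [mul_comm (v x₂) (v x₁)]
        · calc v x₃ ≤ v x₃ * v x₁ * v x₂ := hxle hx₃ hx₁ hx₂
            _ = v x₁ * v x₂ * v x₃ := by rw [mul_assoc, mul_comm]
      rw [e] at h1
      rw [h1] at h2
      exact le_of_pow_le_pow_left₀ two_ne_zero zero_le h2
  have h2ℓ : v (2 * ℓ + 1) ≤ v ν := by
    refine Valuation.map_add_le _ ?_ (by rw [map_one]; exact hν1)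
    rw [map_mul]
    calc v 2 * v ℓ ≤ 1 * v ℓ := mul_le_mul' v_two_le_one le_rfl
      _ = v ℓ := one_mul _
      _ ≤ v ν := hℓ
  have hprod : v ((y₁ + (1 + r) * x₁) * (y₂ + (1 + r) * x₂) * (y₃ + (1 + r) * x₃)) ^ 2 =
      (v ν ^ 3) ^ 2 := by
    rw [map_mul, map_mul, mul_pow, mul_pow, (h.v_branch_sq_of_E0 e₁ hx₁).1,
      (h.v_branch_sq_of_E0 e₂ hx₂).1, (h.v_branch_sq_of_E0 e₃ hx₃).1, ← mul_pow, ← mul_pow,
      ← hν2, ← pow_mul, ← pow_mul]
  have hprod' : v ((y₁ + (1 + r) * x₁) * (y₂ + (1 + r) * x₂) * (y₃ + (1 + r) * x₃)) = v ν ^ 3 :=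
    (pow_left_inj₀ zero_le zero_le two_ne_zero).mp hprod
  have hval := congrArg v key
  rw [map_mul, hprod', Valuation.map_neg, map_mul, map_mul, map_mul, h.hs, one_mul] at hval
  -- `v diff * v ν ^ 3 = v b * v (2ℓ+1) * v ν ≤ v b * v ν ^ 3`
  have hle : v b * v (2 * ℓ + 1) * v ν ≤ v b * v ν ^ 3 := by
    have : v (2 * ℓ + 1) * v ν ≤ v ν ^ 3 := by
      calc v (2 * ℓ + 1) * v ν ≤ v ν * v ν := mul_le_mul' h2ℓ le_rfl
        _ = 1 * (v ν * v ν) := (one_mul _).symm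
        _ ≤ v ν * (v ν * v ν) := mul_le_mul' hν1 le_rfl
        _ = v ν ^ 3 := by rw [pow_succ, pow_two, mul_comm (v ν * v ν)]
    calc v b * v (2 * ℓ + 1) * v ν = v b * (v (2 * ℓ + 1) * v ν) := mul_assoc _ _ _
      _ ≤ v b * v ν ^ 3 := mul_le_mul' le_rfl this
  rw [← hval] at hle
  exact (mul_le_mul_iff_left₀ (pow_pos hν0 3)).mp hle

/-- **`t` is multiplicative on `E₀` modulo `b`.** -/
theorem tf2_add_E0 (h : Node2Data v a b r) {P Q : (nodeW a b).toAffine.Point}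
    (hP : IsE0 v a b P) (hQ : IsE0 v a b Q) :
    v (tf2 a b r (P + Q) - tf2 a b r P * tf2 a b r Q) ≤ v b := by
  rcases P with _ | ⟨x₁, y₁, h₁⟩
  · have e : (Point.zero : (nodeW a b).toAffine.Point) + Q = Q := zero_add Q
    have e' : tf2 a b r (Point.zero : (nodeW a b).toAffine.Point) = 1 := rfl
    rw [e, e', one_mul, sub_self, map_zero]
    exact zero_le
  rcases Q with _ | ⟨x₂, y₂, h₂⟩
  · have e : Point.some x₁ y₁ h₁ + (Point.zero : (nodeW a b).toAffine.Point) =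
        Point.some x₁ y₁ h₁ := add_zero _
    have e' : tf2 a b r (Point.zero : (nodeW a b).toAffine.Point) = 1 := rfl
    rw [e, e', mul_one, sub_self, map_zero]
    exact zero_le
  have hx₁ : 1 ≤ v x₁ := hP
  have hx₂ : 1 ≤ v x₂ := hQ
  by_cases hxy : x₁ = x₂ ∧ y₁ = (nodeW a b).toAffine.negY x₂ y₂
  · rw [Point.add_of_Y_eq hxy.1 hxy.2, tf2_zero, tf2_some, tf2_some]
    obtain ⟨rfl, hy⟩ := hxy
    rw [nd_negY] at hy
    subst hy
    have e₂ := (nd_equation_iff a b x₁ y₂).mp h₂.1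
    obtain ⟨b2, c2⟩ := v_branch_eq2 h e₂ hx₂
    have n2 : y₂ + (1 + r) * x₁ ≠ 0 := (Valuation.ne_zero_iff v).mp c2
    have n2' : y₂ - r * x₁ ≠ 0 := (Valuation.ne_zero_iff v).mp (by rw [b2]; exact c2)
    have n3 : -y₂ - x₁ + (1 + r) * x₁ ≠ 0 := by
      intro h0
      apply n2'
      linear_combination -h0
    have : (1 : K) - (-y₂ - x₁ - r * x₁) / (-y₂ - x₁ + (1 + r) * x₁) *
        ((y₂ - r * x₁) / (y₂ + (1 + r) * x₁)) = 0 := by
      apply ratio_inv_defect n2 n3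
      ring
    rw [this, map_zero]
    exact zero_le
  · exact tf2_add_some_estimate h h₁ h₂ hx₁ hx₂ hxy

/-- `E₀` is stable under multiples, and `t (k • S) ≡ t S ^ k` modulo `b`. -/
theorem tf2_nsmul_E0 (h : Node2Data v a b r) {S : (nodeW a b).toAffine.Point}
    (hS : IsE0 v a b S) (k : ℕ) :
    IsE0 v a b (k • S) ∧ v (tf2 a b r (k • S) - tf2 a b r S ^ k) ≤ v b := by
  induction k with
  | zero =>
    rw [zero_smul, pow_zero]
    refine ⟨trivial, ?_⟩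
    rw [tf2_zero, sub_self, map_zero]
    exact zero_le
  | succ k ih =>
    obtain ⟨ih1, ih2⟩ := ih
    rw [succ_nsmul, pow_succ]
    refine ⟨h.comp_add_EE ih1 hS, ?_⟩
    have e : tf2 a b r (k • S + S) - tf2 a b r S ^ k * tf2 a b r S =
        (tf2 a b r (k • S + S) - tf2 a b r (k • S) * tf2 a b r S) +
          (tf2 a b r (k • S) - tf2 a b r S ^ k) * tf2 a b r S := by ring
    rw [e]
    refine Valuation.map_add_le _ (tf2_add_E0 h ih1 hS) ?_
    rw [map_mul, v_tf2_of_E0 h hS, mul_one]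
    exact ih2

lemma isE0_neg2 {P : (nodeW a b).toAffine.Point} (hP : IsE0 v a b P) : IsE0 v a b (-P) := by
  rcases P with _ | ⟨x, y, hxy⟩
  · exact hP
  · rw [Point.neg_some]; exact hP

/-- `t (-P) = (t P)⁻¹` on `E₀`. -/
lemma tf2_neg_of_E0 (h : Node2Data v a b r) {P : (nodeW a b).toAffine.Point}
    (hP : IsE0 v a b P) : tf2 a b r (-P) = (tf2 a b r P)⁻¹ := by
  rcases P with _ | ⟨x, y, hxy⟩
  · show tf2 a b r (0 : (nodeW a b).toAffine.Point) = (tf2 a b r 0)⁻¹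
    rw [tf2_zero, inv_one]
  · have hx : 1 ≤ v x := hP
    obtain ⟨b1, c1⟩ := v_branch_eq2 h ((nd_equation_iff a b x y).mp hxy.1) hx
    have n1 : y + (1 + r) * x ≠ 0 := (Valuation.ne_zero_iff v).mp c1
    have n2 : y - r * x ≠ 0 := (Valuation.ne_zero_iff v).mp (by rw [b1]; exact c1)
    have n3 : -y - x + (1 + r) * x ≠ 0 := by
      intro h0; apply n2; linear_combination -h0
    rw [Point.neg_some, tf2_some, tf2_some, nd_negY, inv_div, div_eq_div_iff n3 n2]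
    ring

/-- On `E₀`, `t ≡ 1` modulo the maximal ideal exactly on the kernel of reduction. -/
lemma v_tf2_sub_one_sq (h : Node2Data v a b r) {x y : K}
    (hP : (nodeW a b).toAffine.Nonsingular x y) (hx : 1 ≤ v x) :
    v (tf2 a b r (Point.some x y hP) - 1) ^ 2 = (v x)⁻¹ := by
  have e₁ := (nd_equation_iff a b x y).mp hP.1
  obtain ⟨b1, c1⟩ := v_branch_eq2 h e₁ hx
  have n1 : y + (1 + r) * x ≠ 0 := (Valuation.ne_zero_iff v).mp c1
  have hx0 : v x ≠ 0 := (lt_of_lt_of_le zero_lt_one hx).ne'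
  have e : (y - r * x) / (y + (1 + r) * x) - 1 = -((2 * r + 1) * x) / (y + (1 + r) * x) := by
    rw [ratio_sub_one n1]
    congr 1
    ring
  rw [tf2_some, e, map_div₀, Valuation.map_neg, h.vs, div_pow, (h.v_branch_sq_of_E0 e₁ hx).1]
  rw [pow_succ (v x) 2, div_eq_mul_inv, mul_inv, ← mul_assoc, mul_inv_cancel₀ (pow_ne_zero 2 hx0),
    one_mul]

/-- a point of `E₀` with `t ≡ 1` lies in the kernel of reduction -/
lemma inE1_of_tf2_near_one (h : Node2Data v a b r) {P : (nodeW a b).toAffine.Point}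
    (hP : IsE0 v a b P) (ht : v (tf2 a b r P - 1) < 1) : InE1 v (nodeW a b).toAffine P := by
  rcases P with _ | ⟨x, y, hxy⟩
  · exact inE1_zero
  · have hx : 1 ≤ v x := hP
    rw [inE1_some]
    have h1 := v_tf2_sub_one_sq h hxy hx
    have h2 : v (tf2 a b r (Point.some x y hxy) - 1) ^ 2 < 1 := pow_lt_one₀ zero_le ht two_ne_zero
    rw [h1] at h2
    have hx0 : 0 < v x := lt_of_lt_of_le zero_lt_one hx
    by_contra hcon
    rw [not_lt] at hcon
    have hx1 : v x = 1 := le_antisymm hcon hx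
    rw [hx1, inv_one] at h2
    exact lt_irrefl _ h2

end val

end Fermat.Agent.S43lib.BigImg
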