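/-
S43lib / BigImg / Ram2 (helper4): on the nodal model `y² + x y = x³ + a x² + b x` in residue
characteristic 2 (`v b = v π ^ M`, `p ∤ M`, `v p = 1`), not every point of order `p` has an `x`-coordinate whose
valuation is a power of `v π`, as soon as there are more than `p` points killed by `p`.

* a point killed by `p` whose `x`-coordinate has valuation in `(v π)^ℤ` has nonsingular reduction
  (`p ∤ M`);
* the points of `E₀` killed by `p` form a cyclic group: the branch ratio `t` (`TFun2`) embeds them into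
  the `p`-th roots of unity of the residue field, the kernel of reduction having no `p`-torsion.
-/
import Mathlib
import Fermat.Agent.S44lib.Q3.RootsNearOne
import Fermat.Agent.S43lib.BigImg.TFun2

set_option autoImplicit false
set_option linter.unusedSectionVars false

namespace Fermat.Agent.S43lib.BigImg

open WeierstrassCurve WeierstrassCurve.Affine Fermat.Agent.S13lib.Node2
open Fermat.Agent.S05lib (Cong IntegralModel InE1 inE1_zero inE1_some InE1.eq_zero_of_nsmul)
open Fermat.Agent.S44lib.Q3 (exists_root_of_unity_near val_root_of_unity)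

section near

variable {K : Type*} [Field K] {Γ₀ : Type*} [LinearOrderedCommGroupWithZero Γ₀]
  (v : Valuation K Γ₀)

/-- congruence modulo the maximal ideal -/
def Near (x y : K) : Prop := v (x - y) < 1

variable {v}

lemma Near.refl (x : K) : Near v x x := by
  unfold Near
  rw [sub_self, map_zero]
  exact zero_lt_one

lemma Near.symm {x y : K} (h : Near v x y) : Near v y x := by
  unfold Near at h ⊢
  rw [← Valuation.map_neg, neg_sub]
  exact h

lemma Near.trans {x y z : K} (h₁ : Near v x y) (h₂ : Near v y z) : Near v x z := by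
  unfold Near at h₁ h₂ ⊢
  have e : x - z = (x - y) + (y - z) := by ring
  rw [e]
  exact Valuation.map_add_lt _ h₁ h₂

lemma Near.of_le {x y : K} {c : Γ₀} (h : v (x - y) ≤ c) (hc : c < 1) : Near v x y :=
  lt_of_le_of_lt h hc

lemma Near.mul {x x' y y' : K} (hx : v x ≤ 1) (hy' : v y' ≤ 1) (h₁ : Near v x x')
    (h₂ : Near v y y') : Near v (x * y) (x' * y') := by
  unfold Near at h₁ h₂ ⊢
  have e : x * y - x' * y' = x * (y - y') + (x - x') * y' := by ring
  rw [e]
  apply Valuation.map_add_lt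
  · rw [map_mul]
    calc v x * v (y - y') ≤ 1 * v (y - y') := mul_le_mul' hx le_rfl
      _ = v (y - y') := one_mul _
      _ < 1 := h₂
  · rw [map_mul]
    calc v (x - x') * v y' ≤ v (x - x') * 1 := mul_le_mul' le_rfl hy'
      _ = v (x - x') := mul_one _
      _ < 1 := h₁

lemma Near.val_eq_one {x y : K} (hy : v y = 1) (h : Near v x y) : v x = 1 := by
  unfold Near at h
  have e : x = (x - y) + y := by ring
  rw [e, Valuation.map_add_eq_of_lt_right _ (by rw [hy]; exact h), hy]

lemma Near.pow {x x' : K} (hx : v x = 1) (hx' : v x' = 1) (h : Near v x x') (n : ℕ) :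
    Near v (x ^ n) (x' ^ n) := by
  induction n with
  | zero => rw [pow_zero, pow_zero]; exact Near.refl 1
  | succ n ih =>
    rw [pow_succ, pow_succ]
    refine Near.mul ?_ hx'.le ih h
    rw [map_pow, hx, one_pow]

lemma Near.inv {x x' : K} (hx : v x = 1) (hx' : v x' = 1) (h : Near v x x') :
    Near v x⁻¹ x'⁻¹ := by
  unfold Near at h ⊢
  have hx0 : x ≠ 0 := (Valuation.ne_zero_iff v).mp (by rw [hx]; exact one_ne_zero)
  have hx'0 : x' ≠ 0 := (Valuation.ne_zero_iff v).mp (by rw [hx']; exact one_ne_zero)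
  have e : x⁻¹ - x'⁻¹ = (x' - x) / (x * x') := by
    field_simp
  rw [e, map_div₀, map_mul, hx, hx', one_mul, div_one, ← Valuation.map_neg, neg_sub]
  exact h

end near

section val

variable {K : Type*} [Field K] [DecidableEq K] {Γ₀ : Type*} [LinearOrderedCommGroupWithZero Γ₀]
  {v : Valuation K Γ₀} {a b r : K}

/-- **Step A.**  A point killed by `p` whose `x`-coordinate has valuation in `(v π)^ℤ` has
nonsingular reduction, when `v b = v π ^ M` with `p ∤ M`. -/
theorem isE0_of_val_zpow (h : Node2Data v a b r) {π : K} (hπ0 : π ≠ 0) (hπ1 : v π < 1)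
    {M : ℤ} (hbM : v b = v π ^ M) {p : ℕ} (hp : p.Prime) (hp2 : p ≠ 2)
    (hpM : ¬ (p : ℤ) ∣ M) (P : (nodeW a b).toAffine.Point) (hP : p • P = 0)
    (hval : ∀ (x y : K) (hxy : (nodeW a b).toAffine.Nonsingular x y),
      P = Point.some x y hxy → x ≠ 0 → ∃ k : ℤ, v x = v π ^ k) : IsE0 v a b P := by
  have hπpos : 0 < v π := zero_lt_iff.mpr ((Valuation.ne_zero_iff v).mpr hπ0)
  have hπne : v π ≠ 0 := hπpos.ne'
  have hinj := (zpow_right_strictAnti₀ hπpos hπ1).injective
  have hpZ : Prime (p : ℤ) := Nat.prime_iff_prime_int.mp hp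
  -- Step 1: the component of `P` is a power of `v π`
  have hk : ∃ k : ℤ, comp v a b r P = v π ^ k := by
    rcases h.classify P with hc | hc | hc | hc
    · exact ⟨0, by rw [h.comp_of_E0 hc, zpow_zero]⟩
    · exact ⟨M, by rw [h.comp_of_far hc, hbM]⟩
    · rcases P with _ | ⟨x, y, hxy⟩
      · exact absurd hc id
      · have hx0 : x ≠ 0 := by
          rintro rfl
          have := hc.1
          rw [map_zero] at this
          exact not_lt.mpr zero_le this
        obtain ⟨k, hk⟩ := hval x y hxy rfl hx0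
        exact ⟨k, by rw [h.comp_of_plus hc, hk]⟩
    · rcases P with _ | ⟨x, y, hxy⟩
      · exact absurd hc id
      · have hx0 : x ≠ 0 := by
          rintro rfl
          have := hc.1
          rw [map_zero] at this
          exact not_lt.mpr zero_le this
        obtain ⟨k, hk⟩ := hval x y hxy rfl hx0
        exact ⟨-k, by rw [h.comp_of_minus hc, hk, zpow_neg]⟩
  obtain ⟨k, hk⟩ := hk
  -- Step 2: the component of `P` is trivial
  have hc := h.comp_nsmul P p
  rw [hP, h.comp_zero, hk] at hc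
  obtain ⟨m, hm⟩ := hc
  have hm' : v π ^ (0 : ℤ) = v π ^ (k * p + M * (2 * m)) := by
    rw [zpow_zero, zpow_add₀ hπne, zpow_mul, zpow_mul, zpow_natCast, ← hbM]
    exact hm
  have hkm : 0 = k * p + M * (2 * m) := hinj hm'
  have hpm : (p : ℤ) ∣ m := by
    have h1 : (p : ℤ) ∣ M * (2 * m) := ⟨-k, by linarith⟩
    rcases hpZ.dvd_or_dvd h1 with h3 | h3
    · exact absurd h3 hpM
    · rcases hpZ.dvd_or_dvd h3 with h4 | h4
      · exfalso
        have h5 : p ∣ 2 := by exact_mod_cast h4
        exact hp2 ((Nat.prime_dvd_prime_iff_eq hp Nat.prime_two).mp h5)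
      · exact h4
  obtain ⟨m₁, rfl⟩ := hpm
  have hp0 : (p : ℤ) ≠ 0 := hpZ.ne_zero
  have hk' : k = M * (2 * (-m₁)) := by
    have h1 : (p : ℤ) * (k + M * (2 * m₁)) = 0 := by linarith
    rcases mul_eq_zero.mp h1 with h3 | h3
    · exact absurd h3 hp0
    · linarith
  have hcong : Cong v b (comp v a b r P) 1 := by
    refine ⟨-m₁, ?_⟩
    rw [one_mul, hk, hk', zpow_mul, ← hbM]
  exact h.isE0_of_cong_one hcong

lemma isE0_nsmul (h : Node2Data v a b r) {S : (nodeW a b).toAffine.Point}
    (hS : IsE0 v a b S) (k : ℕ) : IsE0 v a b (k • S) := (tf2_nsmul_E0 h hS k).1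

/-- `t ^ p ≡ 1` on the points of `E₀` killed by `p`. -/
lemma near_tf2_pow_one (h : Node2Data v a b r) {p : ℕ} {P : (nodeW a b).toAffine.Point}
    (hP : IsE0 v a b P) (hpP : p • P = 0) : Near v (tf2 a b r P ^ p) 1 := by
  have h1 := (tf2_nsmul_E0 h hP p).2
  rw [hpP, tf2_zero] at h1
  exact (Near.of_le h1 h.hb).symm

/-- **Step B.**  The points of `E₀` killed by `p` form a cyclic group. -/
theorem exists_eq_nsmul_of_E0 (h : Node2Data v a b r) {p : ℕ} (hp : p.Prime)
    (hpv : v (p : K) = 1) {ζ : K} (hζ : IsPrimitiveRoot ζ p)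
    {P Q : (nodeW a b).toAffine.Point} (hP : IsE0 v a b P) (hQ : IsE0 v a b Q)
    (hpP : p • P = 0) (hpQ : p • Q = 0) (hP0 : P ≠ 0) : ∃ m : ℕ, m < p ∧ Q = m • P := by
  have hW := h.integralModel
  have hζ1 : v ζ = 1 := val_root_of_unity v hp.ne_zero hζ.pow_eq_one
  have hζpow : ∀ n : ℕ, v (ζ ^ n) = 1 := fun n => by rw [map_pow, hζ1, one_pow]
  have htP : v (tf2 a b r P) = 1 := v_tf2_of_E0 h hP
  have htQ : v (tf2 a b r Q) = 1 := v_tf2_of_E0 h hQ
  -- `t P` and `t Q` are close to roots of unity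
  obtain ⟨i, hi, hnearP⟩ := exists_root_of_unity_near v hp.pos hζ (tf2 a b r P)
  obtain ⟨j, hj, hnearQ⟩ := exists_root_of_unity_near v hp.pos hζ (tf2 a b r Q)
  rw [hpv, mul_one] at hnearP hnearQ
  have hnP : Near v (tf2 a b r P) (ζ ^ i) :=
    lt_of_le_of_lt hnearP (near_tf2_pow_one h hP hpP)
  have hnQ : Near v (tf2 a b r Q) (ζ ^ j) :=
    lt_of_le_of_lt hnearQ (near_tf2_pow_one h hQ hpQ)
  -- `i ≠ 0` since `P ∉ E₁`
  have hi0 : ¬ p ∣ i := by
    intro hdvd
    have hi' : i = 0 := Nat.eq_zero_of_dvd_of_lt hdvd hi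
    rw [hi', pow_zero] at hnP
    exact hP0 (InE1.eq_zero_of_nsmul hW (inE1_of_tf2_near_one h hP hnP) hpv hpP)
  -- choose `m` with `i m ≡ j`
  have hcop : Nat.Coprime i p := (Nat.Coprime.symm ((Nat.Prime.coprime_iff_not_dvd hp).2 hi0))
  obtain ⟨i', -, hi'⟩ := Nat.exists_mul_mod_eq_one_of_coprime hcop hp.one_lt
  set m := (i' * j) % p with hm
  have hmp : m < p := Nat.mod_lt _ hp.pos
  have hζm : (ζ ^ i) ^ m = ζ ^ j := by
    have e1 : ∀ n : ℕ, ζ ^ n = ζ ^ (n % p) := fun n => by
      conv_lhs => rw [← Nat.div_add_mod n p, pow_add, pow_mul, hζ.pow_eq_one, one_pow, one_mul]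
    rw [← pow_mul, e1 (i * m), e1 j]
    congr 1
    rw [hm, Nat.mul_mod, Nat.mod_mod, ← Nat.mul_mod, ← mul_assoc, Nat.mul_mod, hi', one_mul,
      Nat.mod_mod]
  refine ⟨m, hmp, ?_⟩
  -- `R = Q - m • P` lies in `E₀`, is killed by `p` and has `t R ≡ 1`
  have hmP : IsE0 v a b (m • P) := isE0_nsmul h hP m
  have hnegmP : IsE0 v a b (-(m • P)) := isE0_neg2 hmP
  have hR : IsE0 v a b (Q + -(m • P)) := h.comp_add_EE hQ hnegmP
  have htmP : v (tf2 a b r (m • P)) = 1 := v_tf2_of_E0 h hmP
  have hn1 : Near v (tf2 a b r (m • P)) (ζ ^ j) := by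
    have h1 : Near v (tf2 a b r (m • P)) (tf2 a b r P ^ m) :=
      Near.of_le (tf2_nsmul_E0 h hP m).2 h.hb
    have h2 : Near v (tf2 a b r P ^ m) ((ζ ^ i) ^ m) := Near.pow htP (hζpow i) hnP m
    rw [hζm] at h2
    exact h1.trans h2
  have hn2 : Near v (tf2 a b r (Q + -(m • P))) (tf2 a b r Q * (tf2 a b r (m • P))⁻¹) := by
    have h1 := tf2_add_E0 h hQ hnegmP
    rw [tf2_neg_of_E0 h hmP] at h1
    exact Near.of_le h1 h.hb
  have hn3 : Near v (tf2 a b r Q * (tf2 a b r (m • P))⁻¹) (ζ ^ j * (ζ ^ j)⁻¹) := by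
    refine Near.mul htQ.le ?_ hnQ (Near.inv htmP (hζpow j) hn1)
    rw [map_inv₀, hζpow j, inv_one]
  have hζj0 : ζ ^ j ≠ 0 := (Valuation.ne_zero_iff v).mp (by rw [hζpow j]; exact one_ne_zero)
  rw [mul_inv_cancel₀ hζj0] at hn3
  have hRE1 : InE1 v (nodeW a b).toAffine (Q + -(m • P)) :=
    inE1_of_tf2_near_one h hR (hn2.trans hn3)
  have hpR : p • (Q + -(m • P)) = 0 := by
    rw [smul_add, smul_neg, hpQ, smul_comm, hpP, smul_zero, neg_zero, add_zero]
  have := InE1.eq_zero_of_nsmul hW hRE1 hpv hpR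
  rw [← sub_eq_add_neg, sub_eq_zero] at this
  exact this

/-- **Ramification criterion.**  If more than `p` points are killed by `p`, then one of them has an
`x`-coordinate `≠ 0` whose valuation is not a power of `v π`. -/
theorem exists_torsion_val_not_zpow (h : Node2Data v a b r) {π : K} (hπ0 : π ≠ 0) (hπ1 : v π < 1)
    {M : ℤ} (hbM : v b = v π ^ M) {p : ℕ} (hp : p.Prime) (hp2 : p ≠ 2)
    (hpM : ¬ (p : ℤ) ∣ M) (hpv : v (p : K) = 1) {ζ : K} (hζ : IsPrimitiveRoot ζ p)
    [Finite {P : (nodeW a b).toAffine.Point // p • P = 0}]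
    (hcard : p < Nat.card {P : (nodeW a b).toAffine.Point // p • P = 0}) :
    ∃ (x y : K) (hxy : (nodeW a b).toAffine.Nonsingular x y),
      p • (Point.some x y hxy : (nodeW a b).toAffine.Point) = 0 ∧ x ≠ 0 ∧
        ¬ ∃ k : ℤ, v x = v π ^ k := by
  classical
  by_contra hcon
  -- every point killed by `p` lies in `E₀`
  have hall : ∀ P : (nodeW a b).toAffine.Point, p • P = 0 → IsE0 v a b P := by
    intro P hP
    refine isE0_of_val_zpow h hπ0 hπ1 hbM hp hp2 hpM P hP ?_
    intro x y hxy hPeq hx0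
    by_contra hk
    exact hcon ⟨x, y, hxy, hPeq ▸ hP, hx0, hk⟩
  -- a nonzero point killed by `p`
  have hex : ∃ P : (nodeW a b).toAffine.Point, p • P = 0 ∧ P ≠ 0 := by
    by_contra hno
    have hsub : Subsingleton {P : (nodeW a b).toAffine.Point // p • P = 0} := by
      constructor
      intro P Q
      have hP : P.1 = 0 := by
        by_contra hP0
        exact hno ⟨P.1, P.2, hP0⟩
      have hQ : Q.1 = 0 := by
        by_contra hQ0
        exact hno ⟨Q.1, Q.2, hQ0⟩
      exact Subtype.ext (hP.trans hQ.symm)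
    have := Finite.card_le_one_iff_subsingleton.mpr hsub
    have hp1 := hp.one_lt
    omega
  obtain ⟨P, hpP, hP0⟩ := hex
  -- all points killed by `p` are multiples of `P`
  have hsurj : Function.Surjective
      (fun m : Fin p => (⟨(m : ℕ) • P, by rw [smul_comm, hpP, smul_zero]⟩ :
        {P : (nodeW a b).toAffine.Point // p • P = 0})) := by
    intro Q
    obtain ⟨m, hm, hQ⟩ := exists_eq_nsmul_of_E0 h hp hpv hζ (hall P hpP) (hall Q.1 Q.2) hpP Q.2 hP0
    exact ⟨⟨m, hm⟩, Subtype.ext hQ.symm⟩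
  have hle := Nat.card_le_card_of_surjective _ hsurj
  rw [Nat.card_fin] at hle
  omega

end val

end Fermat.Agent.S43lib.BigImg
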