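/-
S43lib / BigImg / FreyUnip (helper4): **the mod `p` representation of the Frey curve is ramified at `2`**,
and the image of an inertia group at `2` contains a non-trivial unipotent element.

* `frey_ramified_at_two` : for every valuation ring `A` of `ℚ̄` over `2` some `σ ∈ I_A` moves a point of
  `E[p]` (`p ∤ v₂(a₄) = p·v₂(b) - 4`; the fixed field of `I_A` has value group `v(2)^ℤ`, `Ram2`);
* `frey_exists_unipotent` : together with `S13lib.Node2.frey_huni`.
-/
import Mathlib
import Fermat.Agent.S13lib.Node2.FreyUni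
import Fermat.Agent.S13lib.Node2.FreyDelta
import Fermat.Agent.S36lib.Desc.Base
import Fermat.Agent.S41lib.NE.TorsionCard
import Fermat.Agent.S43lib.BigImg.Ram2

set_option autoImplicit false
set_option linter.unusedSectionVars false

namespace Fermat.Agent.S43lib.BigImg

open WeierstrassCurve WeierstrassCurve.Affine WeierstrassCurve.Affine.Point
open Fermat.Agent.S13lib.Node2 Fermat.Agent.S13lib
open Fermat.Agent.S05lib (ptCast ptCast_some ptCast_symm_some inertia_facts)

local notation "Kbar" => AlgebraicClosure ℚ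

/-- the number of points killed by `n`, transported along an equality of curves -/
lemma card_nsmul_eq_zero_of_eq {W₁ W₂ : WeierstrassCurve Kbar} (e : W₁ = W₂) (n : ℕ) :
    Nat.card {Q : W₂.toAffine.Point // n • Q = 0} =
      Nat.card (Submodule.torsionBy ℤ W₁.toAffine.Point n) := by
  subst e
  refine Nat.card_congr (Equiv.subtypeEquivRight ?_)
  intro Q
  rw [Submodule.mem_torsionBy_iff, natCast_zsmul]

/-- **The Frey curve is ramified at `2`.** -/
theorem frey_ramified_at_two (P : FreyPackage) (A : ValuationSubring Kbar)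
    (hA : A.LiesOverPrime 2) :
    ∃ σ ∈ A.inertiaSubgroupIn ℚ, ∃ T : ((P.freyCurve : Affine ℚ)⁄Kbar).Point,
      P.p • T = 0 ∧ σ • T ≠ T := by
  classical
  by_contra hcon
  have hfix : ∀ σ ∈ A.inertiaSubgroupIn ℚ, ∀ T : ((P.freyCurve : Affine ℚ)⁄Kbar).Point,
      P.p • T = 0 → σ • T = T := by
    intro σ hσ T hT
    by_contra hne
    exact hcon ⟨σ, hσ, T, hT, hne⟩
  have h2A' : A.valuation ((2 : ℕ) : Kbar) < 1 := hA
  have h2A : A.valuation (2 : Kbar) < 1 := by simpa using h2A'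
  obtain ⟨A2, hA2⟩ := frey_a2_int P
  obtain ⟨A4, M, c, hA4, hM, hpM, hc, hA4'⟩ := frey_a4_int P
  obtain ⟨r, hnode⟩ := frey_node2Data (A2 := A2) A h2A hM hc hA4'
  have hW := frey_baseChange P hA2 hA4
  have hbM : A.valuation (A4 : Kbar) = A.valuation (2 : Kbar) ^ (M : ℤ) := by
    rw [hA4', val_int_two_pow_mul A h2A hc, zpow_natCast]
  have hp5 := P.hp5
  have : NeZero P.p := ⟨P.hp0⟩
  have : NeZero ((P.p : ℕ) : Kbar) := ⟨Nat.cast_ne_zero.mpr P.hp0⟩
  obtain ⟨ζ, hζ⟩ := HasEnoughRootsOfUnity.exists_primitiveRoot Kbar P.p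
  -- the number of points killed by `p`
  have hΔ : ((P.freyCurve : Affine ℚ)⁄Kbar).Δ ≠ 0 := frey_baseChange_Δ_ne_zero P Kbar
  have hcard0 := Fermat.Agent.S41lib.NE.card_torsionBy_eq_sq
    ((P.freyCurve : Affine ℚ)⁄Kbar) hΔ P.p P.pp.two_le
  have hcard1 := card_nsmul_eq_zero_of_eq hW P.p
  rw [hcard0] at hcard1
  have hcard : P.p < Nat.card {Q : (nodeW (A2 : Kbar) (A4 : Kbar)).toAffine.Point // P.p • Q = 0} := by
    rw [hcard1, pow_two]
    nlinarith
  have : Finite {Q : (nodeW (A2 : Kbar) (A4 : Kbar)).toAffine.Point // P.p • Q = 0} :=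
    Nat.finite_of_card_ne_zero (by omega)
  obtain ⟨x, y, hxy, hpT, hx0, hnot⟩ := exists_torsion_val_not_zpow hnode (π := (2 : Kbar))
    two_ne_zero h2A hbM P.pp (by omega) hpM (frey_val_p P A h2A) hζ hcard
  apply hnot
  -- `x` is fixed by the inertia group
  have hxfix : ∀ τ ∈ A.inertiaSubgroupIn ℚ, τ x = x := by
    intro τ hτ
    set T := (ptCast hW).symm (Point.some x y hxy) with hT
    have hpT' : P.p • T = 0 := by rw [hT, ← map_nsmul, hpT, _root_.map_zero]
    have h1 := hfix τ hτ T hpT'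
    have h2 : ptCast hW (τ • T) = tauOf hW τ (ptCast hW T) := ptCast_smul hW τ T
    rw [h1, hT, AddEquiv.apply_symm_apply] at h2
    obtain ⟨hxy', h3⟩ := tauOf_some hW τ x y hxy
    rw [h3] at h2
    have h4 := (Point.some.injEq ..).mp h2
    exact h4.1.symm
  obtain ⟨m, hm⟩ := Fermat.Agent.S36lib.Desc.exists_zpow_mul_unit A Nat.prime_two hA hx0 hxfix
  refine ⟨-m, ?_⟩
  rw [map_mul, map_zpow₀] at hm
  rw [zpow_neg]
  have h20 : A.valuation ((2 : ℕ) : Kbar) = A.valuation (2 : Kbar) := by norm_num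
  rw [h20] at hm
  exact eq_inv_of_mul_eq_one_left hm

/-- **A non-trivial unipotent element in the image of inertia at `2`** on the `p`-torsion of the Frey
curve. -/
theorem frey_exists_unipotent (P : FreyPackage) :
    ∃ σ₀ : Kbar ≃ₐ[ℚ] Kbar,
      (∃ x : Submodule.torsionBy ℤ ((P.freyCurve : Affine ℚ)⁄Kbar).Point P.p, σ₀ • x ≠ x) ∧
      ∀ x : Submodule.torsionBy ℤ ((P.freyCurve : Affine ℚ)⁄Kbar).Point P.p,
        σ₀ • (σ₀ • x - x) - (σ₀ • x - x) = 0 := by
  obtain ⟨A, -, hA, -⟩ := Fermat.Agent.Helper5.exists_isFrobeniusAt 2 Nat.prime_two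
  obtain ⟨σ, hσ, T, hT, hne⟩ := frey_ramified_at_two P A hA
  have hp2 : (2 : ℕ) ≠ P.p := by have := P.hp5; omega
  refine ⟨σ, ⟨⟨T, ?_⟩, ?_⟩, fun x => frey_huni P Nat.prime_two hp2 A hA σ hσ x⟩
  · rw [Submodule.mem_torsionBy_iff, natCast_zsmul]
    exact hT
  · intro h
    exact hne (congrArg Subtype.val h)

end Fermat.Agent.S43lib.BigImg
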