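/-
S43lib / BigImg / Stmt (helper4): **the "big image" block of Project H, Frey form.**

* `frey_not_unramifiedAt_two` (RAM2): the mod `p` representation of the Frey curve is ramified at `2`;
* `frey_finrank` : `E[p]` has dimension two over `ZMod p`;
* `frey_bigImage` : if `E[p]` is irreducible, then for every field `K ⊇ 𝔽_p` and every subgroup `G ≤ G_ℚ` with
  `G.index = 2 ∨ G = ⊤`, every `G`-stable `K`-subspace of `K ⊗ E[p]` is `⊥` or `⊤`
  (with `G = ⊤`, `K = 𝔽̄_p`: absolute irreducibility; with `G.index = 2`: the Taylor–Wiles hypothesis `hTW`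
  of the frozen S56, for every realisation of `ρ̄`).
No hypothesis besides irreducibility is needed: the non-trivial unipotent element comes from inertia at `2`
(`FreyUnip.frey_exists_unipotent`).
-/
import Mathlib
import Fermat.Prelude.Def_FreyPackage_GaloisRep
import Fermat.Prelude.Def_FLTPrelim_Ramification
import Fermat.Agent.S43lib.BigImg.Abstract
import Fermat.Agent.S43lib.BigImg.FreyUnip

set_option autoImplicit false
set_option linter.unusedSectionVars false

open scoped TensorProduct

namespace Fermat.Agent.S43lib.BigImg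

open WeierstrassCurve WeierstrassCurve.Affine WeierstrassCurve.Affine.Point

local notation "Qb" => AlgebraicClosure ℚ
local notation "GQ" => (AlgebraicClosure ℚ ≃ₐ[ℚ] AlgebraicClosure ℚ)

/-- **RAM2.**  The mod `p` representation of the Frey curve is ramified at `2`. -/
theorem frey_not_unramifiedAt_two (P : FreyPackage) : ¬ P.GaloisRepUnramifiedAt 2 := by
  intro hunr
  obtain ⟨A, -, hA, -⟩ := Fermat.Agent.Helper5.exists_isFrobeniusAt 2 Nat.prime_two
  obtain ⟨σ, hσ, T, hT, hne⟩ := frey_ramified_at_two P A hA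
  have hmem : T ∈ Submodule.torsionBy ℤ ((P.freyCurve : Affine ℚ)⁄Qb).Point P.p := by
    rw [Submodule.mem_torsionBy_iff, natCast_zsmul]
    exact hT
  have h1 := hunr A hA σ hσ ⟨T, hmem⟩
  exact hne (congrArg Subtype.val h1)

/-- `E[p]` of the Frey curve is a plane over `ZMod p`. -/
theorem frey_finrank (P : FreyPackage) [Fact P.p.Prime] :
    Module.finrank (ZMod P.p)
      (Submodule.torsionBy ℤ ((P.freyCurve : Affine ℚ)⁄Qb).Point P.p) = 2 := by
  have hΔ : ((P.freyCurve : Affine ℚ)⁄Qb).Δ ≠ 0 :=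
    Fermat.Agent.S13lib.Node2.frey_baseChange_Δ_ne_zero P Qb
  have hcard := Fermat.Agent.S41lib.NE.card_torsionBy_eq_sq
    ((P.freyCurve : Affine ℚ)⁄Qb) hΔ P.p P.pp.two_le
  have hfin : Finite (Submodule.torsionBy ℤ ((P.freyCurve : Affine ℚ)⁄Qb).Point P.p) :=
    Nat.finite_of_card_ne_zero (hcard ▸ pow_ne_zero 2 P.hp0)
  have h := Module.natCard_eq_pow_finrank (K := ZMod P.p)
    (V := Submodule.torsionBy ℤ ((P.freyCurve : Affine ℚ)⁄Qb).Point P.p)
  rw [hcard, Nat.card_zmod] at h
  exact (Nat.pow_right_injective P.pp.two_le h).symm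

/-- the Frey representation with values in the endomorphism ring -/
noncomputable def freyEnd (P : FreyPackage) :
    GQ →* Module.End (ZMod P.p)
      (Submodule.torsionBy ℤ ((P.freyCurve : Affine ℚ)⁄Qb).Point P.p) where
  toFun σ := (P.freyGaloisRep σ).toLinearMap
  map_one' := by
    apply LinearMap.ext
    intro x
    exact one_smul GQ x
  map_mul' σ τ := by
    apply LinearMap.ext
    intro x
    exact mul_smul σ τ x

lemma freyEnd_apply (P : FreyPackage) (σ : GQ)
    (x : Submodule.torsionBy ℤ ((P.freyCurve : Affine ℚ)⁄Qb).Point P.p) :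
    freyEnd P σ x = σ • x := rfl

/-- **The big-image block, Frey form.** -/
theorem frey_bigImage (P : FreyPackage)
    (hirr : GaloisRepIsIrreducible (K := Qb) ℚ P.freyCurve P.p)
    (K : Type) [Field K] [Algebra (ZMod P.p) K] (G : Subgroup GQ) (hG : G.index = 2 ∨ G = ⊤)
    (W : Submodule K
      (K ⊗[ZMod P.p] (Submodule.torsionBy ℤ ((P.freyCurve : Affine ℚ)⁄Qb).Point P.p)))
    (hW : ∀ σ ∈ G, ∀ x ∈ W, ((P.freyGaloisRep σ).toLinearMap.baseChange K) x ∈ W) :
    W = ⊥ ∨ W = ⊤ := by
  have : Fact P.p.Prime := ⟨P.pp⟩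
  have hp2 : P.p ≠ 2 := by have := P.hp5; omega
  obtain ⟨σ₀, ⟨x₀, hx₀⟩, huni⟩ := frey_exists_unipotent P
  have hne : freyEnd P σ₀ ≠ 1 := by
    intro h
    apply hx₀
    have := LinearMap.congr_fun h x₀
    rwa [freyEnd_apply, Module.End.one_apply] at this
  have hsq : (freyEnd P σ₀ - 1) * (freyEnd P σ₀ - 1) = 0 := by
    apply LinearMap.ext
    intro x
    rw [Module.End.mul_apply, LinearMap.sub_apply, LinearMap.sub_apply, Module.End.one_apply,
      freyEnd_apply, Module.End.one_apply, freyEnd_apply, LinearMap.zero_apply]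
    exact huni x
  have hirr' : ∀ N : Submodule (ZMod P.p)
      (Submodule.torsionBy ℤ ((P.freyCurve : Affine ℚ)⁄Qb).Point P.p),
      (∀ g, ∀ x ∈ N, freyEnd P g x ∈ N) → N = ⊥ ∨ N = ⊤ := by
    intro N hN
    exact hirr.2 N (fun σ x hx => hN σ x hx)
  exact stable_eq_bot_or_top (freyEnd P) (frey_finrank P) hirr' P.p hp2 σ₀ hne hsq K G hG W
    (fun g hg x hx => hW g hg x hx)

end Fermat.Agent.S43lib.BigImg
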