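/-
S43lib / BigImg / Residual (helper4): **the big-image block for an arbitrary realisation of `ρ̄`.**

Let `ρbar : ResidualGaloisRep k` (`k ⊇ 𝔽_p`, `p = P.p`) be ANY realisation of the mod `p` representation of the
Frey curve over `k`, i.e. one equipped with a `G_ℚ`-equivariant `k`-linear isomorphism
`e : k ⊗ E[p] ≃ ρbar.V`.  If `E[p]` is irreducible then
* `ρbar.IsAbsolutelyIrreducible` (hypothesis `habs` of the frozen S56), and
* the Taylor–Wiles hypothesis `hTW` of the frozen S56, verbatim: for every field `K ⊇ k` and every subgroup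
  `G ≤ G_ℚ` of index `2`, every `G`-stable `K`-subspace of `(ρbar.baseChange K).V` is `⊥` or `⊤`.
-/
import Mathlib
import Fermat.Prelude.Def_GaloisRep_Residual
import Fermat.Agent.S43lib.BigImg.Stmt

set_option autoImplicit false
set_option linter.unusedSectionVars false

open scoped TensorProduct

noncomputable section

namespace Fermat.Agent.S43lib.BigImg

open WeierstrassCurve WeierstrassCurve.Affine WeierstrassCurve.Affine.Point

local notation "Qb" => AlgebraicClosure ℚ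
local notation "GQ" => (AlgebraicClosure ℚ ≃ₐ[ℚ] AlgebraicClosure ℚ)

/-- the common core, with the tower `𝔽_p → k → K` given by instances -/
theorem residual_stable_aux (P : FreyPackage)
    (hirr : GaloisRepIsIrreducible (K := Qb) ℚ P.freyCurve P.p)
    {k : Type} [Field k] [Algebra (ZMod P.p) k] (ρbar : ResidualGaloisRep k)
    (e : (k ⊗[ZMod P.p] (Submodule.torsionBy ℤ ((P.freyCurve : Affine ℚ)⁄Qb).Point P.p)) ≃ₗ[k] ρbar.V)
    (he : ∀ (σ : GQ) (x : k ⊗[ZMod P.p] (Submodule.torsionBy ℤ ((P.freyCurve : Affine ℚ)⁄Qb).Point P.p)),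
      e (((P.freyGaloisRep σ).toLinearMap.baseChange k) x) = ρbar.ρ σ (e x))
    (K : Type) [Field K] [Algebra k K] [Algebra (ZMod P.p) K] [IsScalarTower (ZMod P.p) k K]
    (G : Subgroup GQ) (hG : G.index = 2 ∨ G = ⊤)
    (V : Submodule K (ρbar.baseChange K).V)
    (hV : ∀ σ ∈ G, ∀ x ∈ V, (ρbar.baseChange K).ρ σ x ∈ V) : V = ⊥ ∨ V = ⊤ := by
  -- the comparison map `K ⊗ E[p] → K ⊗[k] ρbar.V`
  set Φ : (K ⊗[ZMod P.p] (Submodule.torsionBy ℤ ((P.freyCurve : Affine ℚ)⁄Qb).Point P.p)) →ₗ[K]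
      (K ⊗[k] ρbar.V) :=
    (e.baseChange k K _ _).toLinearMap ∘ₗ
      (TensorProduct.AlgebraTensorModule.cancelBaseChange (ZMod P.p) k K K
        (Submodule.torsionBy ℤ ((P.freyCurve : Affine ℚ)⁄Qb).Point P.p)).symm.toLinearMap with hΦ
  have hΦs : Function.Surjective Φ := by
    rw [hΦ, LinearMap.coe_comp]
    exact (LinearEquiv.surjective _).comp (LinearEquiv.surjective _)
  have hΦt : ∀ (a : K) (m : Submodule.torsionBy ℤ ((P.freyCurve : Affine ℚ)⁄Qb).Point P.p),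
      Φ (a ⊗ₜ m) = a ⊗ₜ e (1 ⊗ₜ m) := fun a m => rfl
  -- equivariance
  have hΦe : ∀ (σ : GQ)
      (y : K ⊗[ZMod P.p] (Submodule.torsionBy ℤ ((P.freyCurve : Affine ℚ)⁄Qb).Point P.p)),
      Φ (((P.freyGaloisRep σ).toLinearMap.baseChange K) y) = (ρbar.baseChange K).ρ σ (Φ y) := by
    intro σ y
    induction y using TensorProduct.induction_on with
    | zero =>
      exact ((congrArg Φ (_root_.map_zero _)).trans (_root_.map_zero Φ)).trans
        ((congrArg _ (_root_.map_zero Φ)).trans (_root_.map_zero _)).symm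
    | tmul a m =>
      have h4 : e ((1 : k) ⊗ₜ ((P.freyGaloisRep σ).toLinearMap m)) = ρbar.ρ σ (e (1 ⊗ₜ m)) :=
        he σ (1 ⊗ₜ m)
      calc Φ (((P.freyGaloisRep σ).toLinearMap.baseChange K) (a ⊗ₜ m))
          = a ⊗ₜ[k] e ((1 : k) ⊗ₜ ((P.freyGaloisRep σ).toLinearMap m)) := rfl
        _ = a ⊗ₜ[k] (ρbar.ρ σ (e (1 ⊗ₜ m))) := congrArg (fun t => a ⊗ₜ[k] t) h4
        _ = (ρbar.baseChange K).ρ σ (Φ (a ⊗ₜ m)) := rfl
    | add x y hx hy =>
      exact ((congrArg Φ (_root_.map_add _ x y)).trans (_root_.map_add Φ _ _)).trans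
        ((congrArg₂ (· + ·) hx hy).trans
          ((congrArg _ (_root_.map_add Φ x y)).trans (_root_.map_add _ _ _)).symm)
  have hW : ∀ σ ∈ G, ∀ x ∈ V.comap Φ, ((P.freyGaloisRep σ).toLinearMap.baseChange K) x ∈ V.comap Φ := by
    intro σ hσ x hx
    have hx' : Φ x ∈ V := hx
    have h5 : Φ (((P.freyGaloisRep σ).toLinearMap.baseChange K) x) ∈ V :=
      (congrArg (fun t => t ∈ V) (hΦe σ x)).mpr (hV σ hσ _ hx')
    exact h5
  rcases frey_bigImage P hirr K G hG (V.comap Φ) hW with h | h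
  · left
    apply (Submodule.eq_bot_iff V).2
    intro v hv
    obtain ⟨y, rfl⟩ := hΦs v
    have hy : y ∈ V.comap Φ := hv
    have hy0 : y = 0 := (Submodule.mem_bot K).1 (h ▸ hy)
    exact (congrArg Φ hy0).trans (_root_.map_zero Φ)
  · right
    apply (Submodule.eq_top_iff').2
    intro v
    obtain ⟨y, rfl⟩ := hΦs v
    have hy : y ∈ V.comap Φ := h.symm ▸ Submodule.mem_top
    exact hy

/-- the common core: `G`-stable subspaces of `K ⊗[k] ρbar.V` for `G` of index `2` or `G = ⊤` -/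
theorem residual_stable_eq_bot_or_top (P : FreyPackage)
    (hirr : GaloisRepIsIrreducible (K := Qb) ℚ P.freyCurve P.p)
    {k : Type} [Field k] [Algebra (ZMod P.p) k] (ρbar : ResidualGaloisRep k)
    (e : (k ⊗[ZMod P.p] (Submodule.torsionBy ℤ ((P.freyCurve : Affine ℚ)⁄Qb).Point P.p)) ≃ₗ[k] ρbar.V)
    (he : ∀ (σ : GQ) (x : k ⊗[ZMod P.p] (Submodule.torsionBy ℤ ((P.freyCurve : Affine ℚ)⁄Qb).Point P.p)),
      e (((P.freyGaloisRep σ).toLinearMap.baseChange k) x) = ρbar.ρ σ (e x))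
    (K : Type) [Field K] [Algebra k K] (G : Subgroup GQ) (hG : G.index = 2 ∨ G = ⊤)
    (V : Submodule K (ρbar.baseChange K).V)
    (hV : ∀ σ ∈ G, ∀ x ∈ V, (ρbar.baseChange K).ρ σ x ∈ V) : V = ⊥ ∨ V = ⊤ :=
  letI : Algebra (ZMod P.p) K := ((algebraMap k K).comp (algebraMap (ZMod P.p) k)).toAlgebra
  haveI : IsScalarTower (ZMod P.p) k K := IsScalarTower.of_algebraMap_eq' rfl
  residual_stable_aux P hirr ρbar e he K G hG V hV

/-- **BIGIMG for a realisation of `ρ̄`:** `habs` and `hTW` of the frozen S56. -/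
theorem residual_bigImage (P : FreyPackage)
    (hirr : GaloisRepIsIrreducible (K := Qb) ℚ P.freyCurve P.p)
    {k : Type} [Field k] [Algebra (ZMod P.p) k] (ρbar : ResidualGaloisRep k)
    (e : (k ⊗[ZMod P.p] (Submodule.torsionBy ℤ ((P.freyCurve : Affine ℚ)⁄Qb).Point P.p)) ≃ₗ[k] ρbar.V)
    (he : ∀ (σ : GQ) (x : k ⊗[ZMod P.p] (Submodule.torsionBy ℤ ((P.freyCurve : Affine ℚ)⁄Qb).Point P.p)),
      e (((P.freyGaloisRep σ).toLinearMap.baseChange k) x) = ρbar.ρ σ (e x)) :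
    ρbar.IsAbsolutelyIrreducible ∧
    ∀ (K : Type) [Field K] [Algebra k K] (G : Subgroup GQ), G.index = 2 →
      ∀ V : Submodule K (ρbar.baseChange K).V,
        (∀ σ ∈ G, ∀ x ∈ V, (ρbar.baseChange K).ρ σ x ∈ V) → V = ⊥ ∨ V = ⊤ := by
  refine ⟨?_, fun K _ _ G hG V hV => ?_⟩
  · intro W hW
    exact residual_stable_eq_bot_or_top P hirr ρbar e he (AlgebraicClosure k) ⊤ (Or.inr rfl) W
      (fun σ _ x hx => hW σ x hx)
  · exact residual_stable_eq_bot_or_top P hirr ρbar e he K G (Or.inl hG) V hV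

end Fermat.Agent.S43lib.BigImg
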