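/-
S43lib / BigImg / FreyResidual (helper4): **the canonical realisation of the mod `p` representation of the Frey
curve over a field `k ⊇ 𝔽_p`, with all the hypotheses of the frozen S56.**

* `freyRes P : ResidualGaloisRep (ZMod P.p)` := the Prelude's `residualGaloisRepOf P.freyCurve P.p`;
* `freyResidual P k := (freyRes P).baseChange k`  (`V = k ⊗ E[p]`);
* `freyResidual_habs`, `freyResidual_hTW` (if `E[p]` is irreducible): `habs`, `hTW` of S56;
* `freyResidual_hdet` : `(GaloisRepAdic.ofResidualGaloisRep (freyResidual P k)).DetIsCyclotomic P.p`;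
* `freyResidual_hsplit` : if every element of `𝔽_p` is a square in `k`, all characteristic polynomials split;
* `freyResidual_isUnramifiedAt_iff` : unramified at `q` iff `P.GaloisRepUnramifiedAt q`.
-/
import Mathlib
import Fermat.Prelude.Def_GaloisRep_Residual
import Fermat.Prelude.Def_GaloisRep_LocalConditions
import Fermat.Agent.S43lib.BigImg.Residual
import Fermat.Agent.S43lib.B3.Arith.Det
import Fermat.Agent.S29lib.P.FreyFiniteLevel

set_option autoImplicit false
set_option linter.unusedSectionVars false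
set_option linter.style.haveILetI false

open scoped TensorProduct

noncomputable section

namespace Fermat.Agent.S43lib.BigImg

open WeierstrassCurve WeierstrassCurve.Affine WeierstrassCurve.Affine.Point Polynomial

local notation "Qb" => AlgebraicClosure ℚ
local notation "GQ" => (AlgebraicClosure ℚ ≃ₐ[ℚ] AlgebraicClosure ℚ)

/-- `E[p]` of the Frey curve has `p²` elements -/
theorem frey_card (P : FreyPackage) :
    Nat.card (Submodule.torsionBy ℤ ((P.freyCurve : Affine ℚ)⁄Qb).Point P.p) = P.p ^ 2 := by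
  have hΔ : ((P.freyCurve : Affine ℚ)⁄Qb).Δ ≠ 0 :=
    Fermat.Agent.S13lib.Node2.frey_baseChange_Δ_ne_zero P Qb
  exact Fermat.Agent.S41lib.NE.card_torsionBy_eq_sq ((P.freyCurve : Affine ℚ)⁄Qb) hΔ P.p P.pp.two_le

/-- the mod `p` representation of the Frey curve as a `ResidualGaloisRep` over `𝔽_p` (the Prelude's
`residualGaloisRepOf`) -/
def freyRes (P : FreyPackage) [Fact P.p.Prime] : ResidualGaloisRep (ZMod P.p) :=
  P.freyCurve.residualGaloisRepOf P.p (frey_card P)
    (Fermat.Agent.S29lib.P.frey_factorsThroughFiniteLevel P)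

/-- the mod `p` representation of the Frey curve over a field `k ⊇ 𝔽_p` -/
def freyResidual (P : FreyPackage) [Fact P.p.Prime] (k : Type) [Field k] [Algebra (ZMod P.p) k] :
    ResidualGaloisRep k :=
  (freyRes P).baseChange k

variable (P : FreyPackage) [hpf : Fact P.p.Prime] (k : Type) [Field k] [Algebra (ZMod P.p) k]

theorem freyResidual_rho_apply (σ : GQ) :
    (freyResidual P k).ρ σ =
      (galoisRepModuleEnd (S := ℚ) (K := Qb) P.freyCurve P.p σ).baseChange k := rfl

/-- `habs` and `hTW` of the frozen S56 for `freyResidual P k` -/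
theorem freyResidual_bigImage (hirr : GaloisRepIsIrreducible (K := Qb) ℚ P.freyCurve P.p) :
    (freyResidual P k).IsAbsolutelyIrreducible ∧
    ∀ (K : Type) [Field K] [Algebra k K] (G : Subgroup GQ), G.index = 2 →
      ∀ V : Submodule K ((freyResidual P k).baseChange K).V,
        (∀ σ ∈ G, ∀ x ∈ V, ((freyResidual P k).baseChange K).ρ σ x ∈ V) → V = ⊥ ∨ V = ⊤ :=
  residual_bigImage P hirr (freyResidual P k) (LinearEquiv.refl k _) (fun _ _ => rfl)

/-! ### the determinant -/

/-- the determinant of `g` on `E[p]` of the Frey curve is the mod `p` cyclotomic character -/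
theorem frey_det_eq_of_rootAction (g : GQ) (a : ℕ) (ha : ∀ μ : Qb, μ ^ P.p = 1 → g μ = μ ^ a) :
    LinearMap.det (galoisRepModuleEnd (S := ℚ) (K := Qb) P.freyCurve P.p g) = (a : ZMod P.p) := by
  obtain ⟨hΔ, d, hd⟩ := Fermat.Agent.S43lib.B3.exists_freyCoord' P P.freyCurveInt
    (Fermat.Agent.S43lib.B3.freyCurveInt_isIntegralModelOf P)
  -- the coordinates as a linear equivalence
  set e : (Submodule.torsionBy ℤ ((P.freyCurve : Affine ℚ)⁄Qb).Point P.p) ≃ₗ[ZMod P.p]
      (Fin 2 → ZMod P.p) :=
    LinearEquiv.ofBijective (d.toAddMonoidHom.toZModLinearMap P.p) d.bijective with he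
  have hconj : (e : _ →ₗ[ZMod P.p] _) ∘ₗ
      (galoisRepModuleEnd (S := ℚ) (K := Qb) P.freyCurve P.p g) ∘ₗ (e.symm : _ →ₗ[ZMod P.p] _) =
      Matrix.toLin' (Fermat.Agent.S44lib.Q1.rhoE P.freyCurveInt hΔ P.p g) := by
    apply LinearMap.ext
    intro v
    obtain ⟨x, rfl⟩ := e.surjective v
    rw [LinearMap.comp_apply, LinearMap.comp_apply, LinearEquiv.coe_coe, LinearEquiv.coe_coe,
      LinearEquiv.symm_apply_apply, Matrix.toLin'_apply]
    exact hd g x
  rw [← LinearMap.det_conj _ e, hconj, LinearMap.det_toLin']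
  exact Fermat.Agent.S43lib.B3.det_rhoE_eq_of_rootAction P.freyCurveInt hΔ P.p g a ha

/-- **`hdet` of the frozen S56** for `freyResidual P k` -/
theorem freyResidual_hdet :
    (GaloisRepAdic.ofResidualGaloisRep (freyResidual P k)).DetIsCyclotomic P.p := by
  have hp0 : ((P.p : ℕ) : k) = 0 := by
    have h1 : ((P.p : ℕ) : k) = algebraMap (ZMod P.p) k ((P.p : ℕ) : ZMod P.p) := by
      rw [map_natCast]
    rw [h1, ZMod.natCast_self, _root_.map_zero]
  refine ⟨?_, fun n σ a ha => ?_⟩
  · rw [hp0]
    exact Submodule.zero_mem _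
  · rcases Nat.eq_zero_or_pos n with rfl | hn
    · rw [pow_zero, Nat.cast_one, Ideal.span_singleton_one]
      exact Submodule.mem_top
    · have ha' : ∀ μ : Qb, μ ^ P.p = 1 → σ μ = μ ^ a := by
        intro μ hμ
        apply ha
        obtain ⟨m, rfl⟩ : ∃ m, n = m + 1 := ⟨n - 1, (Nat.sub_add_cancel hn).symm⟩
        rw [pow_succ', pow_mul, hμ, one_pow]
      haveI : Module.Finite (ZMod P.p)
          (Submodule.torsionBy ℤ ((P.freyCurve : Affine ℚ)⁄Qb).Point P.p) :=
        Module.finite_of_finrank_eq_succ (frey_finrank P)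
      have hdet : LinearMap.det ((GaloisRepAdic.ofResidualGaloisRep (freyResidual P k)).ρ σ) =
          (a : k) := by
        change LinearMap.det
          ((galoisRepModuleEnd (S := ℚ) (K := Qb) P.freyCurve P.p σ).baseChange k) = (a : k)
        rw [LinearMap.det_baseChange, frey_det_eq_of_rootAction P σ a ha', map_natCast]
      rw [hdet, sub_self]
      exact Submodule.zero_mem _

/-! ### splitting of the characteristic polynomials -/

omit hpf in
/-- a ring homomorphism applied to a discriminant -/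
theorem map_disc {R S : Type*} [CommRing R] [CommRing S] (φ : R →+* S) (b c : R) :
    φ (b ^ 2 - 4 * c) = φ b ^ 2 - 4 * φ c := by
  rw [map_sub, map_mul, map_pow, map_ofNat]

omit hpf in
/-- the quadratic formula -/
theorem quad_eq_mul {F : Type*} [Field F] (h2 : (2 : F) ≠ 0) (b c x : F) (hx : x ^ 2 = b ^ 2 - 4 * c) :
    (X : F[X]) ^ 2 + C b * X + C c = (X - C ((-b + x) / 2)) * (X - C ((-b - x) / 2)) := by
  have h1 : (-b + x) / 2 + (-b - x) / 2 = -b := by field_simp; ring
  have h3 : (-b + x) / 2 * ((-b - x) / 2) = c := by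
    field_simp
    linear_combination -hx
  have e : (X - C ((-b + x) / 2)) * (X - C ((-b - x) / 2)) =
      (X : F[X]) ^ 2 - C ((-b + x) / 2 + (-b - x) / 2) * X + C ((-b + x) / 2 * ((-b - x) / 2)) := by
    rw [C_add, C_mul]; ring
  rw [e, h1, h3, C_neg]
  ring

/-- **`hsplit` of the frozen S56** for `freyResidual P k`, if every element of `𝔽_p` is a square in `k`
(e.g. `𝔽_{p²} ⊆ k`). -/
theorem freyResidual_hsplit (hk : ∀ a : ZMod P.p, ∃ x : k, x ^ 2 = algebraMap (ZMod P.p) k a)
    (σ : GQ) : ∃ α β : k, LinearMap.charpoly ((freyResidual P k).ρ σ) = (X - C α) * (X - C β) := by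
  haveI : Module.Finite (ZMod P.p)
      (Submodule.torsionBy ℤ ((P.freyCurve : Affine ℚ)⁄Qb).Point P.p) :=
    Module.finite_of_finrank_eq_succ (frey_finrank P)
  set f := galoisRepModuleEnd (S := ℚ) (K := Qb) P.freyCurve P.p σ with hf
  have hmonic : f.charpoly.Monic := LinearMap.charpoly_monic f
  have hdeg : f.charpoly.natDegree = 2 := by
    rw [LinearMap.charpoly_natDegree, frey_finrank P]
  obtain ⟨b, c, hsum⟩ : ∃ b c : ZMod P.p, f.charpoly = X ^ 2 + C b * X + C c := by
    have h := hmonic.as_sum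
    rw [hdeg, Finset.sum_range_succ, Finset.sum_range_one, pow_zero, mul_one, pow_one] at h
    exact ⟨f.charpoly.coeff 1, f.charpoly.coeff 0, h.trans (by ring)⟩
  have h2 : (2 : k) ≠ 0 := by
    have h2' : (2 : ZMod P.p) ≠ 0 := by
      intro h20
      have h3 : ((2 : ℕ) : ZMod P.p) = 0 := by exact_mod_cast h20
      rw [ZMod.natCast_eq_zero_iff] at h3
      have := P.hp5
      have := Nat.le_of_dvd (by norm_num) h3
      omega
    have : (2 : k) = algebraMap (ZMod P.p) k 2 := by rw [map_ofNat]
    rw [this]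
    exact (_root_.map_ne_zero _).2 h2'
  obtain ⟨x, hx⟩ := hk (b ^ 2 - 4 * c)
  have hch : LinearMap.charpoly (f.baseChange k) =
      (X - C ((-(algebraMap (ZMod P.p) k b) + x) / 2)) *
        (X - C ((-(algebraMap (ZMod P.p) k b) - x) / 2)) := by
    rw [LinearMap.charpoly_baseChange, hsum, Polynomial.map_add,
      Polynomial.map_add, Polynomial.map_mul, Polynomial.map_pow, Polynomial.map_X, Polynomial.map_C,
      Polynomial.map_C]
    exact quad_eq_mul h2 _ _ x (hx.trans (map_disc _ _ _))
  exact ⟨_, _, hch⟩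

/-! ### ramification -/

/-- `freyResidual P k` is unramified at `q` iff the Frey representation is -/
theorem freyResidual_isUnramifiedAt_iff (q : ℕ) :
    (freyResidual P k).IsUnramifiedAt q ↔ P.GaloisRepUnramifiedAt q := by
  haveI : FaithfulSMul (ZMod P.p) k :=
    (faithfulSMul_iff_algebraMap_injective _ _).2 (algebraMap (ZMod P.p) k).injective
  constructor
  · intro h A hA σ hσ x
    have h1 : (galoisRepModuleEnd (S := ℚ) (K := Qb) P.freyCurve P.p σ).baseChange k =
        (LinearMap.id : _ →ₗ[ZMod P.p]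
          (Submodule.torsionBy ℤ ((P.freyCurve : Affine ℚ)⁄Qb).Point P.p)).baseChange k :=
      (h A hA σ hσ).trans LinearMap.baseChange_id.symm
    have h3 := LinearMap.baseChangeHom_injective (ZMod P.p) _ k h1
    exact LinearMap.congr_fun h3 x
  · intro h A hA σ hσ
    have h1 : galoisRepModuleEnd (S := ℚ) (K := Qb) P.freyCurve P.p σ = LinearMap.id := by
      apply LinearMap.ext
      intro x
      exact h A hA σ hσ x
    have h2 : (galoisRepModuleEnd (S := ℚ) (K := Qb) P.freyCurve P.p σ).baseChange k =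
        LinearMap.id := by
      rw [h1, LinearMap.baseChange_id]
    exact h2

end Fermat.Agent.S43lib.BigImg
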