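/-
S43lib / BigImg / NoFixed (helper4).  **A commutator without the eigenvalue `1` from ONE unipotent element.**

Let `ρ : Γ → GL(V)` be an irreducible representation on a plane `V` over a field `k` and `u = ρ σ₀ ≠ 1` unipotent
with fixed line `ℓ`.  By irreducibility there is `g` with `ρ(g) ℓ ≠ ℓ`; then the commutator
`ρ (g σ₀ g⁻¹ σ₀⁻¹) = (g u g⁻¹) u⁻¹` is a product of two unipotent elements with different fixed lines: it has
determinant `1` and trace `2 - c`, `c ≠ 0`, so it does not have the eigenvalue `1`.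

Also: not having the eigenvalue `1` is stable under extension of scalars.
-/
import Mathlib

set_option autoImplicit false

open scoped TensorProduct

namespace Fermat.Agent.S43lib.BigImg

section NoFixed

variable {k : Type*} [Field k] {V : Type*} [AddCommGroup V] [Module k V]
variable {Γ : Type*} [Group Γ] (ρ : Γ →* Module.End k V)

/-- the kernel of a non-zero nilpotent endomorphism of a plane is a line -/
lemma exists_ker_line (hV : Module.finrank k V = 2) (n : Module.End k V) (hn0 : n ≠ 0)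
    (hn : n * n = 0) :
    ∃ e₁ : V, e₁ ≠ 0 ∧ n e₁ = 0 ∧ (∃ e₂, n e₂ = e₁) ∧ ∀ x, n x = 0 → ∃ a : k, x = a • e₁ := by
  classical
  obtain ⟨e₂, he₂⟩ : ∃ e₂ : V, n e₂ ≠ 0 := by
    by_contra h
    rw [not_exists] at h
    have h : ∀ x, n x = 0 := fun x => not_not.1 (h x)
    exact hn0 (LinearMap.ext h)
  set e₁ := n e₂ with he₁
  have hne₁ : n e₁ = 0 := by
    have := LinearMap.congr_fun hn e₂
    simpa using this
  have hli : LinearIndependent k ![e₁, e₂] := by
    rw [LinearIndependent.pair_iff]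
    intro a b hab
    have h1 : n (a • e₁ + b • e₂) = 0 := by rw [hab, map_zero]
    rw [map_add, map_smul, map_smul, hne₁, smul_zero, zero_add] at h1
    have hb : b = 0 := by
      rcases smul_eq_zero.1 h1 with h | h
      · exact h
      · exact absurd h he₂
    rw [hb, zero_smul, add_zero] at hab
    have ha : a = 0 := by
      rcases smul_eq_zero.1 hab with h | h
      · exact h
      · exact absurd h he₂
    exact ⟨ha, hb⟩
  let b : Module.Basis (Fin 2) k V :=
    basisOfLinearIndependentOfCardEqFinrank hli (by rw [Fintype.card_fin, hV])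
  have hb0 : b 0 = e₁ := by
    simp [b, coe_basisOfLinearIndependentOfCardEqFinrank]
  have hb1 : b 1 = e₂ := by
    simp [b, coe_basisOfLinearIndependentOfCardEqFinrank]
  have hrepr : ∀ v : V, v = b.repr v 0 • e₁ + b.repr v 1 • e₂ := by
    intro v
    conv_lhs => rw [← b.sum_repr v]
    rw [Fin.sum_univ_two, hb0, hb1]
  refine ⟨e₁, he₂, hne₁, ⟨e₂, rfl⟩, fun x hx => ?_⟩
  have h1 := hrepr x
  have h2 : n x = b.repr x 1 • e₁ := by
    conv_lhs => rw [h1]
    rw [map_add, map_smul, map_smul, hne₁, smul_zero, zero_add]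
  rw [hx] at h2
  have h3 : b.repr x 1 = 0 := by
    rcases smul_eq_zero.1 h2.symm with h | h
    · exact h
    · exact absurd h he₂
  refine ⟨b.repr x 0, ?_⟩
  rw [h3, zero_smul, add_zero] at h1
  exact h1

/-- **A commutator without the eigenvalue `1`.** -/
theorem exists_commutator_no_fixed (hV : Module.finrank k V = 2)
    (hirr : ∀ W : Submodule k V, (∀ g, ∀ x ∈ W, ρ g x ∈ W) → W = ⊥ ∨ W = ⊤)
    (σ₀ : Γ) (hne : ρ σ₀ ≠ 1) (hsq : (ρ σ₀ - 1) * (ρ σ₀ - 1) = 0) :
    ∃ g : Γ, ∀ y : V, ρ (g * σ₀ * g⁻¹ * σ₀⁻¹) y = y → y = 0 := by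
  classical
  set n : Module.End k V := ρ σ₀ - 1 with hn
  have hn0 : n ≠ 0 := fun h => hne (sub_eq_zero.1 h)
  obtain ⟨e₁, he₁0, hne₁, ⟨e₂, he₂⟩, hker⟩ := exists_ker_line hV n hn0 hsq
  have hu : ∀ x, ρ σ₀ x = x + n x := by
    intro x
    rw [hn, LinearMap.sub_apply, Module.End.one_apply, add_sub_cancel]
  -- the fixed line is not stable
  set W : Submodule k V := Submodule.span k {e₁} with hW
  have hWbot : W ≠ ⊥ := by
    intro h
    have : e₁ ∈ W := Submodule.mem_span_singleton_self e₁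
    rw [h, Submodule.mem_bot] at this
    exact he₁0 this
  have hWtop : W ≠ ⊤ := by
    intro h
    have : e₂ ∈ W := h ▸ Submodule.mem_top
    obtain ⟨a, ha⟩ := Submodule.mem_span_singleton.1 this
    have h1 : n e₂ = 0 := by rw [← ha, map_smul, hne₁, smul_zero]
    rw [he₂] at h1
    exact he₁0 h1
  have hns : ¬ ∀ g, ∀ x ∈ W, ρ g x ∈ W := fun h => (hirr W h).elim hWbot hWtop
  push Not at hns
  obtain ⟨g, x, hxW, hgx⟩ := hns
  have hge₁ : ρ g e₁ ∉ W := by
    intro h
    obtain ⟨a, rfl⟩ := Submodule.mem_span_singleton.1 hxW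
    rw [map_smul] at hgx
    exact hgx (W.smul_mem a h)
  have hPP' : ∀ x, ρ g (ρ g⁻¹ x) = x := by
    intro x
    rw [← Module.End.mul_apply, ← map_mul, mul_inv_cancel, map_one, Module.End.one_apply]
  have hP'P : ∀ x, ρ g⁻¹ (ρ g x) = x := by
    intro x
    rw [← Module.End.mul_apply, ← map_mul, inv_mul_cancel, map_one, Module.End.one_apply]
  have huu' : ∀ x, ρ σ₀ (ρ σ₀⁻¹ x) = x := by
    intro x
    rw [← Module.End.mul_apply, ← map_mul, mul_inv_cancel, map_one, Module.End.one_apply]
  -- the key: `x` and `ρ g⁻¹ x` both on the fixed line forces `x = 0`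
  have hkey : ∀ x, n x = 0 → n (ρ g⁻¹ x) = 0 → x = 0 := by
    intro x hx hx'
    obtain ⟨d, hd⟩ := hker x hx
    obtain ⟨a, ha⟩ := hker _ hx'
    by_contra hx0
    have hd0 : d ≠ 0 := by
      intro h
      rw [h, zero_smul] at hd
      exact hx0 hd
    have h1 : ρ g⁻¹ e₁ = (d⁻¹ * a) • e₁ := by
      have : ρ g⁻¹ e₁ = d⁻¹ • ρ g⁻¹ x := by
        rw [hd, map_smul, smul_smul, inv_mul_cancel₀ hd0, one_smul]
      rw [this, ha, smul_smul]
    have h2 : e₁ = (d⁻¹ * a) • ρ g e₁ := by
      have := congrArg (ρ g) h1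
      rw [hPP', map_smul] at this
      exact this
    have h3 : d⁻¹ * a ≠ 0 := by
      intro h
      rw [h, zero_smul] at h2
      exact he₁0 h2
    apply hge₁
    have h4 : ρ g e₁ = (d⁻¹ * a)⁻¹ • e₁ := by
      conv_rhs => rw [h2, smul_smul, inv_mul_cancel₀ h3, one_smul]
    rw [h4]
    exact W.smul_mem _ (Submodule.mem_span_singleton_self e₁)
  refine ⟨g, fun y hy => ?_⟩
  set z := ρ σ₀⁻¹ y with hz
  have hyz : y = ρ σ₀ z := (huu' y).symm
  have h1 : ρ g (ρ σ₀ (ρ g⁻¹ z)) = ρ σ₀ z := by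
    have : ρ (g * σ₀ * g⁻¹ * σ₀⁻¹) y = ρ g (ρ σ₀ (ρ g⁻¹ (ρ σ₀⁻¹ y))) := by
      rw [map_mul, map_mul, map_mul, Module.End.mul_apply, Module.End.mul_apply, Module.End.mul_apply]
    rw [this, ← hz] at hy
    rw [hy, hyz]
  have h2 : ρ σ₀ (ρ g⁻¹ z) = ρ g⁻¹ (ρ σ₀ z) := by
    have := congrArg (ρ g⁻¹) h1
    rwa [hP'P] at this
  have h3 : n (ρ g⁻¹ z) = ρ g⁻¹ (n z) := by
    rw [hu, hu, map_add] at h2
    exact add_left_cancel h2
  have hnn : ∀ x, n (n x) = 0 := fun x => by
    have := LinearMap.congr_fun hsq x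
    simpa using this
  have hw : n z = 0 := by
    apply hkey (n z) (hnn z)
    rw [← h3]
    exact hnn _
  have hz0 : z = 0 := by
    apply hkey z hw
    rw [h3, hw, map_zero]
  rw [hyz, hz0, map_zero]

end NoFixed

section BaseChange

variable {F : Type*} [Field F] {V : Type*} [AddCommGroup V] [Module F V]

/-- not having the eigenvalue `1` is stable under extension of scalars -/
theorem baseChange_no_fixed (K : Type*) [Field K] [Algebra F K] (T : Module.End F V)
    (hT : ∀ x, T x = x → x = 0) : ∀ y : K ⊗[F] V, T.baseChange K y = y → y = 0 := by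
  have hinj : Function.Injective (T - 1 : Module.End F V) := by
    rw [← LinearMap.ker_eq_bot, LinearMap.ker_eq_bot']
    intro x hx
    rw [LinearMap.sub_apply, Module.End.one_apply, sub_eq_zero] at hx
    exact hT x hx
  have hinj' : Function.Injective ((T - 1 : Module.End F V).baseChange K) :=
    Module.Flat.lTensor_preserves_injective_linearMap (T - 1 : Module.End F V) hinj
  intro y hy
  apply hinj'
  rw [map_zero, LinearMap.baseChange_sub, LinearMap.sub_apply, hy]
  have : (1 : Module.End F V).baseChange K = LinearMap.id := LinearMap.baseChange_id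
  rw [this, LinearMap.id_apply, sub_self]

end BaseChange

end Fermat.Agent.S43lib.BigImg
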