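/-
S43lib / BigImg / StrongNonEis (helper4).  **Strong non-Eisenstein: Frobenius elements at primes `ℓ ≡ 1 (mod m)`
without the eigenvalue `1`.**

* `comm_apply_primitiveRoot` : a commutator in `G_ℚ` fixes every root of unity;
* `exists_frobenius_one_mod_of_noFixed` : (weak Chebotarev) if `σ` fixes `ζ_m` and `ρ̄(σ)` does not have the
  eigenvalue `1`, there are a prime `ℓ ∉ S₀`, `ℓ ≡ 1 (mod m)` and a Frobenius `φ` at a place over `ℓ` such that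
  `ρ̄(φ)` does not have the eigenvalue `1`;
* `freyResidual_exists_frobenius_one_mod` : for the mod `p` representation of the Frey curve (irreducible): for all
  `m > 0` and all finite `S₀` there are `ℓ ∉ S₀` prime, `m ∣ ℓ - 1` and a Frobenius `φ` over `ℓ` with
  `charpoly(ρ̄ φ)(1) ≠ 0`, i.e. `tr ρ̄(φ) ≠ 1 + det ρ̄(φ)`.
-/
import Mathlib
import Fermat.Agent.S43lib.BigImg.NoFixed
import Fermat.Agent.S43lib.BigImg.FreyResidual
import Fermat.Agent.S56lib.TWSel.Frob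

set_option autoImplicit false
set_option linter.unusedSectionVars false
set_option linter.style.haveILetI false

open scoped TensorProduct IntermediateField

noncomputable section

namespace Fermat.Agent.S43lib.BigImg

open WeierstrassCurve WeierstrassCurve.Affine WeierstrassCurve.Affine.Point Polynomial
  Fermat.Agent.S56lib.TWSel

local notation "Qb" => AlgebraicClosure ℚ
local notation "GQ" => (AlgebraicClosure ℚ ≃ₐ[ℚ] AlgebraicClosure ℚ)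

/-! ### commutators fix the roots of unity -/

/-- every automorphism acts on the `m`-th roots of unity by a power -/
theorem exists_pow_of_primitiveRoot {m : ℕ} (hm : 0 < m) {ζ : Qb} (hζ : IsPrimitiveRoot ζ m) (σ : GQ) :
    ∃ i : ℕ, ∀ ξ : Qb, ξ ^ m = 1 → σ ξ = ξ ^ i := by
  haveI : NeZero m := ⟨hm.ne'⟩
  obtain ⟨i, -, hi⟩ := hζ.eq_pow_of_pow_eq_one (ξ := σ ζ)
    (by rw [← map_pow, hζ.pow_eq_one, _root_.map_one])
  refine ⟨i, fun ξ hξ => ?_⟩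
  obtain ⟨t, -, rfl⟩ := hζ.eq_pow_of_pow_eq_one hξ
  rw [map_pow, ← hi, ← pow_mul, ← pow_mul, mul_comm]

/-- a commutator fixes every root of unity -/
theorem comm_apply_primitiveRoot {m : ℕ} (hm : 0 < m) {ζ : Qb} (hζ : IsPrimitiveRoot ζ m) (a b : GQ) :
    (a * b * a⁻¹ * b⁻¹) ζ = ζ := by
  obtain ⟨i, hi⟩ := exists_pow_of_primitiveRoot hm hζ a
  obtain ⟨j, hj⟩ := exists_pow_of_primitiveRoot hm hζ b
  have hpow : ∀ (σ : GQ) (ξ : Qb), ξ ^ m = 1 → (σ ξ) ^ m = 1 := by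
    intro σ ξ hξ
    rw [← map_pow, hξ, _root_.map_one]
  have hcomm : ∀ ξ : Qb, ξ ^ m = 1 → a (b ξ) = b (a ξ) := by
    intro ξ hξ
    rw [hj ξ hξ, hi ξ hξ, map_pow, map_pow, hi ξ hξ, hj ξ hξ, ← pow_mul, ← pow_mul, mul_comm]
  have h1 : (a * b * a⁻¹ * b⁻¹) ζ = a (b (a⁻¹ (b⁻¹ ζ))) := rfl
  rw [h1, hcomm _ (hpow _ _ (hpow _ _ hζ.pow_eq_one))]
  have h2 : ∀ (σ : GQ) (x : Qb), σ (σ⁻¹ x) = x := by
    intro σ x
    rw [← AlgEquiv.mul_apply, mul_inv_cancel, AlgEquiv.one_apply]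
  rw [h2, h2]

/-! ### the Chebotarev step -/

/-- **weak Chebotarev for an element without the eigenvalue `1` fixing `ζ_m`** -/
theorem exists_frobenius_one_mod_of_noFixed {k : Type} [Field k] (ρbar : ResidualGaloisRep k)
    (σ : GQ) (hσ : ∀ x, ρbar.ρ σ x = x → x = 0) {m : ℕ} (hm : 0 < m)
    {ζ : Qb} (hζ : IsPrimitiveRoot ζ m) (hσζ : σ ζ = ζ) (S₀ : Finset ℕ) :
    ∃ (ℓ : ℕ) (A : ValuationSubring Qb) (φ : GQ), ℓ.Prime ∧ ℓ ∉ S₀ ∧ m ∣ ℓ - 1 ∧ A.LiesOverPrime ℓ ∧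
      A.IsFrobeniusAt φ ℓ ∧ ∀ x, ρbar.ρ φ x = x → x = 0 := by
  classical
  obtain ⟨L, hL, hLρ⟩ := ρbar.factorsThroughFiniteLevel
  haveI := hL
  have hζalg : IsIntegral ℚ ζ := Algebra.IsIntegral.isIntegral ζ
  haveI : FiniteDimensional ℚ ℚ⟮ζ⟯ := IntermediateField.adjoin.finiteDimensional hζalg
  obtain ⟨F₀, hF₀⟩ : ∃ F₀ : IntermediateField ℚ Qb, F₀ = L ⊔ ℚ⟮ζ⟯ := ⟨_, rfl⟩
  haveI : FiniteDimensional ℚ F₀ := by
    rw [hF₀]
    exact IntermediateField.finiteDimensional_sup L ℚ⟮ζ⟯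
  obtain ⟨F, hF⟩ : ∃ F : IntermediateField ℚ Qb, F = IntermediateField.normalClosure ℚ F₀ Qb :=
    ⟨_, rfl⟩
  haveI : Normal ℚ F := by
    rw [hF]
    exact normalClosure.normal _ _ _
  haveI : FiniteDimensional ℚ F := by
    rw [hF]
    exact normalClosure.is_finiteDimensional _ _ _
  haveI : IsGalois ℚ F := ⟨⟩
  have hF₀F : F₀ ≤ F := by
    rw [hF]
    exact IntermediateField.le_normalClosure F₀
  have hLF : L ≤ F := by
    refine le_trans ?_ hF₀F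
    rw [hF₀]
    exact le_sup_left
  have hζF : ζ ∈ F := by
    apply hF₀F
    rw [hF₀]
    exact (le_sup_right : ℚ⟮ζ⟯ ≤ L ⊔ ℚ⟮ζ⟯) (IntermediateField.mem_adjoin_simple_self ℚ ζ)
  have hρF : ∀ s ∈ F.fixingSubgroup, ρbar.ρ s = 1 := by
    intro s hs
    exact hLρ s fun x hx => (IntermediateField.mem_fixingSubgroup_iff F s).1 hs x (hLF hx)
  obtain ⟨ℓ, A₀, φ₀, j, a, hℓ, hℓS₀, hA₀, hφ₀, hσφ, hφσ⟩ :=
    exists_frobenius_zpowers_eq F σ (S₀ ∪ m.primeFactors)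
  have h1 : (φ₀ ^ j)⁻¹ * σ ∈ F.fixingSubgroup := mem_fixingSubgroup_of_forall hσφ
  have h2 : (σ ^ a)⁻¹ * φ₀ ∈ F.fixingSubgroup := mem_fixingSubgroup_of_forall hφσ
  have hσeq : σ = φ₀ ^ j * ((φ₀ ^ j)⁻¹ * σ) := by group
  have hφ₀eq : φ₀ = σ ^ a * ((σ ^ a)⁻¹ * φ₀) := by group
  have hρσ : ρbar.ρ σ = ρbar.ρ φ₀ ^ j := by
    conv_lhs => rw [hσeq, map_mul, hρF _ h1, mul_one, map_pow]
  have hcop : Nat.Coprime m ℓ := by
    rw [Nat.coprime_comm, Nat.Prime.coprime_iff_not_dvd hℓ]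
    intro hdvd
    exact hℓS₀ (Finset.mem_union_right _ (Nat.mem_primeFactors.2 ⟨hℓ, hdvd, hm.ne'⟩))
  refine ⟨ℓ, A₀, φ₀, hℓ, fun h => hℓS₀ (Finset.mem_union_left _ h), ?_, hA₀, hφ₀, ?_⟩
  · have hfix : φ₀ ζ = ζ := by
      rw [hφσ ζ hζF]
      clear hφσ h2 hφ₀eq hρσ
      induction a with
      | zero => simp
      | succ a ih => rw [pow_succ, AlgEquiv.mul_apply, hσζ, ih]
    exact dvd_sub_one_of_frobenius_fixes hℓ hA₀ hm hcop hζ hφ₀ hfix
  · intro x hx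
    apply hσ x
    rw [hρσ]
    have hpow : ∀ t : ℕ, (ρbar.ρ φ₀ ^ t) x = x := by
      intro t
      induction t with
      | zero => simp
      | succ t ih => rw [pow_succ, Module.End.mul_apply, hx, ih]
    exact hpow j

/-! ### the Frey curve -/

variable (P : FreyPackage) [hpf : Fact P.p.Prime] (k : Type) [Field k] [Algebra (ZMod P.p) k]

/-- a commutator acting without the eigenvalue `1` on `E[p]` of the Frey curve -/
theorem frey_exists_commutator_no_fixed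
    (hirr : GaloisRepIsIrreducible (K := Qb) ℚ P.freyCurve P.p) :
    ∃ a b : GQ, ∀ y : (freyResidual P k).V, (freyResidual P k).ρ (a * b * a⁻¹ * b⁻¹) y = y → y = 0 := by
  obtain ⟨σ₀, ⟨x₀, hx₀⟩, huni⟩ := frey_exists_unipotent P
  have hne : freyEnd P σ₀ ≠ 1 := by
    intro h
    apply hx₀
    have := LinearMap.congr_fun h x₀
    rwa [freyEnd_apply, Module.End.one_apply] at this
  have hsq : (freyEnd P σ₀ - 1) * (freyEnd P σ₀ - 1) = 0 := by
    apply LinearMap.ext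
    intro x
    rw [Module.End.mul_apply, LinearMap.sub_apply, LinearMap.sub_apply, Module.End.one_apply,
      freyEnd_apply, Module.End.one_apply, freyEnd_apply, LinearMap.zero_apply]
    exact huni x
  have hirr' : ∀ N : Submodule (ZMod P.p)
      (Submodule.torsionBy ℤ ((P.freyCurve : Affine ℚ)⁄Qb).Point P.p),
      (∀ g, ∀ x ∈ N, freyEnd P g x ∈ N) → N = ⊥ ∨ N = ⊤ := by
    intro N hN
    exact hirr.2 N (fun σ x hx => hN σ x hx)
  obtain ⟨g, hg⟩ := exists_commutator_no_fixed (freyEnd P) (frey_finrank P) hirr' σ₀ hne hsq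
  refine ⟨g, σ₀, ?_⟩
  exact baseChange_no_fixed k (freyEnd P (g * σ₀ * g⁻¹ * σ₀⁻¹)) hg

/-- **Strong non-Eisenstein for the Frey curve.**  For every modulus `m` and every finite set `S₀` of primes there
are a prime `ℓ ∉ S₀`, `ℓ ≡ 1 (mod m)`, and a Frobenius element `φ` at a place over `ℓ` such that `ρ̄(φ)` does not have
the eigenvalue `1`. -/
theorem freyResidual_exists_frobenius_no_fixed
    (hirr : GaloisRepIsIrreducible (K := Qb) ℚ P.freyCurve P.p) {m : ℕ} (hm : 0 < m) (S₀ : Finset ℕ) :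
    ∃ (ℓ : ℕ) (A : ValuationSubring Qb) (φ : GQ), ℓ.Prime ∧ ℓ ∉ S₀ ∧ m ∣ ℓ - 1 ∧ A.LiesOverPrime ℓ ∧
      A.IsFrobeniusAt φ ℓ ∧ ∀ x, (freyResidual P k).ρ φ x = x → x = 0 := by
  obtain ⟨a, b, hab⟩ := frey_exists_commutator_no_fixed P k hirr
  haveI : NeZero m := ⟨hm.ne'⟩
  obtain ⟨ζ, hζ⟩ := HasEnoughRootsOfUnity.exists_primitiveRoot Qb m
  exact exists_frobenius_one_mod_of_noFixed (freyResidual P k) (a * b * a⁻¹ * b⁻¹) hab hm hζ
    (comm_apply_primitiveRoot hm hζ a b) S₀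

/-- **Strong non-Eisenstein, characteristic polynomial form**: `charpoly(ρ̄ φ)(1) ≠ 0`, i.e.
`tr ρ̄(φ) ≠ 1 + det ρ̄(φ)`. -/
theorem freyResidual_exists_frobenius_one_mod
    (hirr : GaloisRepIsIrreducible (K := Qb) ℚ P.freyCurve P.p) {m : ℕ} (hm : 0 < m) (S₀ : Finset ℕ) :
    ∃ (ℓ : ℕ) (A : ValuationSubring Qb) (φ : GQ), ℓ.Prime ∧ ℓ ∉ S₀ ∧ m ∣ ℓ - 1 ∧ A.LiesOverPrime ℓ ∧
      A.IsFrobeniusAt φ ℓ ∧ (LinearMap.charpoly ((freyResidual P k).ρ φ)).eval 1 ≠ 0 := by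
  obtain ⟨ℓ, A, φ, hℓ, hℓS₀, hdvd, hA, hφ, hno⟩ := freyResidual_exists_frobenius_no_fixed P k hirr hm S₀
  refine ⟨ℓ, A, φ, hℓ, hℓS₀, hdvd, hA, hφ, fun h0 => ?_⟩
  have hroot : (LinearMap.charpoly ((freyResidual P k).ρ φ)).IsRoot 1 := h0
  rw [← Module.End.hasEigenvalue_iff_isRoot_charpoly] at hroot
  obtain ⟨x, hx⟩ := hroot.exists_hasEigenvector
  apply hx.2
  apply hno x
  rw [hx.apply_eq_smul, one_smul]

end Fermat.Agent.S43lib.BigImg
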